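import Fermat.Agent.S14.Unfold.U5in

/-!
# S14 / W5(d) / U5: sublattice comparison ⟹ class-zeta comparison (helper371)

`abs_classZeta_sub_le_core` is hypothesis-parametrised: all inputs of the skeleton
(U3/U4 statements) are taken as hypotheses.
-/

set_option autoImplicit false

namespace Fermat.Agent.S14.Unfold

open NumberField NumberField.InfinitePlace NumberField.Units Module
open scoped ENNReal nonZeroDivisors Classical

namespace U5

variable (K : Type*) [Field K] [NumberField K]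

theorem classZeta_le_zetaSum (C : ClassGroup (𝓞 K)) (s : ℝ) : classZeta K C s ≤ zetaSum K s := by
  unfold classZeta zetaSum
  exact ENNReal.tsum_comp_le_tsum_of_injective (f := fun I :
    {I : (Ideal (𝓞 K))⁰ // ClassGroup.mk0 I = C} => (I : (Ideal (𝓞 K))⁰)) Subtype.val_injective
    (fun I : (Ideal (𝓞 K))⁰ => ENNReal.ofReal ((Ideal.absNorm (I : Ideal (𝓞 K)) : ℝ) ^ (-s)))

/-- ENNReal comparison of two nonnegative families whose difference is controlled. -/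
theorem tsum_ofReal_le_add {ι : Type*} (a b : ι → ℝ) :
    ∑' i, ENNReal.ofReal (a i) ≤
      ∑' i, ENNReal.ofReal (b i) + ∑' i, ENNReal.ofReal |a i - b i| := by
  rw [← ENNReal.tsum_add]
  refine ENNReal.tsum_le_tsum (fun i => ?_)
  refine le_trans (ENNReal.ofReal_le_ofReal ?_) ENNReal.ofReal_add_le
  have := le_abs_self (a i - b i)
  linarith

/-- Abstract comparison: a sum of `N` pieces each within `D i` of `FJ`. -/
theorem abstract_compare {N : ℕ} (FO FJ : ℝ≥0∞) (A : Fin N → ℝ≥0∞) (D : Fin N → ℝ)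
    (hD0 : ∀ i, 0 ≤ D i) (hFO : FO = ∑ i, A i)
    (hA1 : ∀ i, A i ≤ FJ + ENNReal.ofReal (D i)) (hA2 : ∀ i, FJ ≤ A i + ENNReal.ofReal (D i))
    (hFOfin : FO ≠ ⊤) (hFJfin : FJ ≠ ⊤) :
    |FO.toReal - N * FJ.toReal| ≤ ∑ i, D i := by
  have hDtot : 0 ≤ ∑ i, D i := Finset.sum_nonneg (fun i _ => hD0 i)
  have hconst : (N : ℝ≥0∞) * FJ = ∑ _i : Fin N, FJ := by
    rw [Finset.sum_const, Finset.card_univ, Fintype.card_fin, nsmul_eq_mul]
  have hup : FO ≤ N * FJ + ENNReal.ofReal (∑ i, D i) := by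
    rw [hFO, ENNReal.ofReal_sum_of_nonneg (fun i _ => hD0 i), hconst, ← Finset.sum_add_distrib]
    exact Finset.sum_le_sum (fun i _ => hA1 i)
  have hlow : N * FJ ≤ FO + ENNReal.ofReal (∑ i, D i) := by
    rw [hFO, ENNReal.ofReal_sum_of_nonneg (fun i _ => hD0 i), hconst, ← Finset.sum_add_distrib]
    exact Finset.sum_le_sum (fun i _ => hA2 i)
  have hNFJfin : (N : ℝ≥0∞) * FJ ≠ ⊤ := ENNReal.mul_ne_top (ENNReal.natCast_ne_top N) hFJfin
  have hupR : FO.toReal ≤ N * FJ.toReal + ∑ i, D i := by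
    have := ENNReal.toReal_mono (ENNReal.add_ne_top.mpr ⟨hNFJfin, ENNReal.ofReal_ne_top⟩) hup
    rwa [ENNReal.toReal_add hNFJfin ENNReal.ofReal_ne_top, ENNReal.toReal_mul,
      ENNReal.toReal_natCast, ENNReal.toReal_ofReal hDtot] at this
  have hlowR : N * FJ.toReal ≤ FO.toReal + ∑ i, D i := by
    have := ENNReal.toReal_mono (ENNReal.add_ne_top.mpr ⟨hFOfin, ENNReal.ofReal_ne_top⟩) hlow
    rwa [ENNReal.toReal_add hFOfin ENNReal.ofReal_ne_top, ENNReal.toReal_mul,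
      ENNReal.toReal_natCast, ENNReal.toReal_ofReal hDtot] at this
  rw [abs_le]
  constructor <;> linarith

/-- The real-number endgame. -/
theorem real_endgame {Z1 ZC w N c D s q : ℝ} (hw : 1 ≤ w) (hN : 1 ≤ N) (hc : 0 ≤ c) (hD : 0 ≤ D)
    (hs1 : 1 < s) (hs2 : s ≤ 2) (hZ1 : 0 ≤ Z1) (hZ1c : Z1 ≤ c / (s - 1))
    (hq : q = N * N ^ (-s))
    (h : |w * Z1 - N * (w * N ^ (-s) * ZC)| ≤ D) :
    |ZC - Z1| ≤ N * D + (N - 1) * c := by
  have hN0 : 0 < N := by linarith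
  set r : ℝ := N ^ (s - 1) with hr
  have hqr : q * r = 1 := by
    rw [hq, hr, mul_assoc, ← Real.rpow_add hN0]
    have : N * N ^ (-s + (s - 1)) = N ^ (1 : ℝ) * N ^ (-s + (s - 1)) := by rw [Real.rpow_one]
    rw [this, ← Real.rpow_add hN0]
    have : (1 : ℝ) + (-s + (s - 1)) = 0 := by ring
    rw [this, Real.rpow_zero]
  have hr1 : 1 ≤ r := Real.one_le_rpow hN (by linarith)
  have hrN : r ≤ N := by
    calc r ≤ N ^ (1 : ℝ) := Real.rpow_le_rpow_of_exponent_le hN (by linarith)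
      _ = N := Real.rpow_one N
  have hr_le : r ≤ 1 + (s - 1) * (N - 1) := by
    have := rpow_one_add_le_one_add_mul_self (s := N - 1) (by linarith)
      (p := s - 1) (by linarith) (by linarith)
    have h2 : (1 : ℝ) + (N - 1) = N := by ring
    rw [h2] at this
    exact this
  have hr0 : 0 < r := by linarith
  -- `|Z1 - q ZC| ≤ D`
  have h1 : |Z1 - q * ZC| ≤ D := by
    have hrew : w * Z1 - N * (w * N ^ (-s) * ZC) = w * (Z1 - q * ZC) := by rw [hq]; ring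
    rw [hrew, abs_mul, abs_of_pos (by linarith : (0 : ℝ) < w)] at h
    have habs := abs_nonneg (Z1 - q * ZC)
    nlinarith
  -- `ZC - Z1 = r (q ZC - Z1) + (r - 1) Z1`
  have hid : ZC - Z1 = r * (q * ZC - Z1) + (r - 1) * Z1 := by
    have : r * (q * ZC) = ZC := by rw [← mul_assoc, mul_comm r q, hqr, one_mul]
    linear_combination -this
  rw [hid]
  have ha : |r * (q * ZC - Z1)| ≤ N * D := by
    rw [abs_mul, abs_of_pos hr0, abs_sub_comm]
    exact mul_le_mul hrN h1 (abs_nonneg _) (by linarith)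
  have hb : |(r - 1) * Z1| ≤ (N - 1) * c := by
    rw [abs_mul, abs_of_nonneg (by linarith : (0 : ℝ) ≤ r - 1), abs_of_nonneg hZ1]
    have hs0 : 0 < s - 1 := by linarith
    calc (r - 1) * Z1 ≤ ((s - 1) * (N - 1)) * (c / (s - 1)) :=
          mul_le_mul (by linarith) hZ1c hZ1 (by nlinarith)
      _ = (N - 1) * c := by field_simp
  exact (abs_add_le _ _).trans (add_le_add ha hb)

/-- **U5 core**: comparison of the class zeta function of `C` with that of the trivial class,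
from the unfolding identity, the coset decomposition, the shift bound and the pole bound. -/
theorem abs_classZeta_sub_le_core (C : ClassGroup (𝓞 K))
    (hfin : ∀ s : ℝ, 1 < s → zetaSum K s < ⊤)
    (hzeta : ∃ c : ℝ, 0 < c ∧ ∀ s : ℝ, 1 < s → s ≤ 2 → (zetaSum K s).toReal ≤ c / (s - 1))
    (hunf : ∀ (J : (Ideal (𝓞 K))⁰) (s : ℝ),
      ∑' x : (J : Ideal (𝓞 K)), ENNReal.ofReal (fs K s ((x : 𝓞 K) : K)) =
        torsionOrder K * ENNReal.ofReal ((Ideal.absNorm (J : Ideal (𝓞 K)) : ℝ) ^ (-s))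
          * classZeta K (ClassGroup.mk0 J)⁻¹ s)
    (hcos : ∀ J : (Ideal (𝓞 K))⁰,
      ∃ v : Fin (Ideal.absNorm (J : Ideal (𝓞 K))) → 𝓞 K, ∀ g : 𝓞 K → ℝ≥0∞,
        ∑' x : 𝓞 K, g x = ∑ i, ∑' x : (J : Ideal (𝓞 K)), g ((x : 𝓞 K) + v i))
    (hshift : ∀ (J : (Ideal (𝓞 K))⁰) (v : 𝓞 K),
      ∃ D : ℝ, 0 ≤ D ∧ ∀ s : ℝ, 1 ≤ s → s ≤ 2 →
        ∑' x : (J : Ideal (𝓞 K)),
          ENNReal.ofReal |fs K s (((x : 𝓞 K) + v : 𝓞 K) : K) - fs K s ((x : 𝓞 K) : K)|
            ≤ ENNReal.ofReal D) :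
    ∃ B : ℝ, ∀ s : ℝ, 1 < s → s ≤ 2 →
      |(classZeta K C s).toReal - (classZeta K 1 s).toReal| ≤ B := by
  obtain ⟨J, hJ⟩ := ClassGroup.mk0_surjective C⁻¹
  have hJC : (ClassGroup.mk0 J)⁻¹ = C := by rw [hJ, inv_inv]
  obtain ⟨c, hc0, hc⟩ := hzeta
  obtain ⟨v, hv⟩ := hcos J
  choose D hD0 hD using fun i => hshift J (v i)
  have hN1 : 1 ≤ Ideal.absNorm (J : Ideal (𝓞 K)) := Nat.one_le_iff_ne_zero.mpr (by
    rw [Ne, Ideal.absNorm_eq_zero_iff]
    exact nonZeroDivisors.coe_ne_zero J)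
  have hw1 : 1 ≤ torsionOrder K := Nat.one_le_iff_ne_zero.mpr (torsionOrder_ne_zero K)
  refine ⟨(Ideal.absNorm (J : Ideal (𝓞 K)) : ℝ) * (∑ i, D i) +
    ((Ideal.absNorm (J : Ideal (𝓞 K)) : ℝ) - 1) * c, fun s hs1 hs2 => ?_⟩
  -- the top ideal
  let Jtop : (Ideal (𝓞 K))⁰ := ⟨⊤, by
    rw [mem_nonZeroDivisors_iff_ne_zero]; exact top_ne_bot⟩
  have hfinC : ∀ C' : ClassGroup (𝓞 K), classZeta K C' s ≠ ⊤ := fun C' =>
    ne_top_of_le_ne_top (hfin s hs1).ne (classZeta_le_zetaSum K C' s)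
  -- `F_J`
  have hFJeq : ∑' x : (J : Ideal (𝓞 K)), ENNReal.ofReal (fs K s ((x : 𝓞 K) : K)) =
      torsionOrder K * ENNReal.ofReal ((Ideal.absNorm (J : Ideal (𝓞 K)) : ℝ) ^ (-s)) *
        classZeta K C s := by
    rw [hunf J s, hJC]
  have hFJfin : ∑' x : (J : Ideal (𝓞 K)), ENNReal.ofReal (fs K s ((x : 𝓞 K) : K)) ≠ ⊤ := by
    rw [hFJeq]
    exact ENNReal.mul_ne_top (ENNReal.mul_ne_top (ENNReal.natCast_ne_top _) ENNReal.ofReal_ne_top)
      (hfinC C)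
  -- `F_O`
  have hFOeq : ∑' x : 𝓞 K, ENNReal.ofReal (fs K s (x : K)) = torsionOrder K * classZeta K 1 s := by
    have h1 := hunf Jtop s
    have htop : ∑' x : ((Jtop : (Ideal (𝓞 K))⁰) : Ideal (𝓞 K)),
        ENNReal.ofReal (fs K s ((x : 𝓞 K) : K)) = ∑' x : 𝓞 K, ENNReal.ofReal (fs K s (x : K)) :=
      (Equiv.Set.univ (𝓞 K)).tsum_eq (fun x : 𝓞 K => ENNReal.ofReal (fs K s (x : K)))
    have hmk : ClassGroup.mk0 Jtop = 1 := by
      rw [ClassGroup.mk0_eq_one_iff]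
      exact top_isPrincipal
    rw [htop, hmk, inv_one] at h1
    rw [h1]
    have : ((Jtop : (Ideal (𝓞 K))⁰) : Ideal (𝓞 K)) = ⊤ := rfl
    rw [this, Ideal.absNorm_top, Nat.cast_one, Real.one_rpow, ENNReal.ofReal_one, mul_one]
  have hFOfin : ∑' x : 𝓞 K, ENNReal.ofReal (fs K s (x : K)) ≠ ⊤ := by
    rw [hFOeq]; exact ENNReal.mul_ne_top (ENNReal.natCast_ne_top _) (hfinC 1)
  -- coset decomposition
  have hcosets := hv (fun x : 𝓞 K => ENNReal.ofReal (fs K s (x : K)))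
  have hDs : ∀ i, ∑' x : (J : Ideal (𝓞 K)),
      ENNReal.ofReal |fs K s (((x : 𝓞 K) + v i : 𝓞 K) : K) - fs K s ((x : 𝓞 K) : K)|
        ≤ ENNReal.ofReal (D i) := fun i => hD i s hs1.le hs2
  have hDs' : ∀ i, ∑' x : (J : Ideal (𝓞 K)),
      ENNReal.ofReal |fs K s ((x : 𝓞 K) : K) - fs K s (((x : 𝓞 K) + v i : 𝓞 K) : K)|
        ≤ ENNReal.ofReal (D i) := fun i => by
    refine le_trans (le_of_eq ?_) (hDs i)
    refine tsum_congr (fun x => ?_)
    rw [abs_sub_comm]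
  have hcmp := abstract_compare _ _
    (fun i => ∑' x : (J : Ideal (𝓞 K)), ENNReal.ofReal (fs K s (((x : 𝓞 K) + v i : 𝓞 K) : K)))
    D hD0 hcosets
    (fun i => (tsum_ofReal_le_add _ _).trans (add_le_add le_rfl (hDs i)))
    (fun i => (tsum_ofReal_le_add _ _).trans (add_le_add le_rfl (hDs' i)))
    hFOfin hFJfin
  have hDtot : 0 ≤ ∑ i, D i := Finset.sum_nonneg (fun i _ => hD0 i)
  have hFOR : (∑' x : 𝓞 K, ENNReal.ofReal (fs K s (x : K))).toReal =
      torsionOrder K * (classZeta K 1 s).toReal := by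
    rw [hFOeq, ENNReal.toReal_mul, ENNReal.toReal_natCast]
  have hNpos : (0 : ℝ) ≤ (Ideal.absNorm (J : Ideal (𝓞 K)) : ℝ) ^ (-s) :=
    Real.rpow_nonneg (Nat.cast_nonneg _) _
  have hFJR : (∑' x : (J : Ideal (𝓞 K)), ENNReal.ofReal (fs K s ((x : 𝓞 K) : K))).toReal =
      torsionOrder K * (Ideal.absNorm (J : Ideal (𝓞 K)) : ℝ) ^ (-s) * (classZeta K C s).toReal := by
    rw [hFJeq, ENNReal.toReal_mul, ENNReal.toReal_mul, ENNReal.toReal_natCast,
      ENNReal.toReal_ofReal hNpos]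
  rw [hFOR, hFJR] at hcmp
  have hZ1le : (classZeta K 1 s).toReal ≤ c / (s - 1) :=
    (ENNReal.toReal_mono (hfin s hs1).ne (classZeta_le_zetaSum K 1 s)).trans (hc s hs1 hs2)
  exact real_endgame (by exact_mod_cast hw1) (by exact_mod_cast hN1) hc0.le hDtot hs1 hs2
    ENNReal.toReal_nonneg hZ1le rfl hcmp

end U5

/-- Drop-in proof of the skeleton statement `abs_classZeta_sub_le` (U5) from the skeleton's
U3/U4/U5-preliminary statements. -/
theorem abs_classZeta_sub_le_U5 (K : Type*) [Field K] [NumberField K] (C : ClassGroup (𝓞 K)) :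
    ∃ B : ℝ, ∀ s : ℝ, 1 < s → s ≤ 2 →
      |(classZeta K C s).toReal - (classZeta K 1 s).toReal| ≤ B :=
  U5.abs_classZeta_sub_le_core K C (fun _ hs => zetaSum_lt_top K hs) (exists_zetaSum_le K)
    (tsum_fs_mem_ideal K) (tsum_eq_sum_cosets K) (tsum_abs_fs_add_sub_le K)

end Fermat.Agent.S14.Unfold
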