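import Mathlib

/-!
# S14 / W5(d) / U0: tent functions

`tent t = max 0 (1 - |t|)` and its products; partition of unity under integer translations.
-/

set_option autoImplicit false

namespace Fermat.Agent.S14.Unfold

open scoped ENNReal

/-- The tent function `max 0 (1 - |t|)`. -/
noncomputable def tent (t : ℝ) : ℝ := max 0 (1 - |t|)

theorem tent_nonneg (t : ℝ) : 0 ≤ tent t := le_max_left _ _

theorem tent_le_one (t : ℝ) : tent t ≤ 1 := by
  unfold tent
  have := abs_nonneg t
  exact max_le (by norm_num) (by linarith)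

theorem tent_ne_zero_iff (t : ℝ) : tent t ≠ 0 ↔ |t| < 1 := by
  unfold tent
  constructor
  · intro h
    by_contra h'
    rw [not_lt] at h'
    exact h (max_eq_left (by linarith))
  · intro h
    have : 0 < max 0 (1 - |t|) := lt_max_of_lt_right (by linarith)
    exact this.ne'

theorem tent_eq_zero_iff (t : ℝ) : tent t = 0 ↔ 1 ≤ |t| := by
  rw [← not_lt, ← tent_ne_zero_iff, not_not]

theorem tent_of_abs_lt {t : ℝ} (h : |t| ≤ 1) : tent t = 1 - |t| := by
  unfold tent
  exact max_eq_right (by linarith)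

theorem abs_tent_sub_le (a b : ℝ) : |tent a - tent b| ≤ |a - b| := by
  unfold tent
  have h1 : |max 0 (1 - |a|) - max 0 (1 - |b|)| ≤ |(1 - |a|) - (1 - |b|)| := by
    have := abs_max_sub_max_le_abs (1 - |a|) (1 - |b|) 0
    rwa [max_comm (1 - |a|) 0, max_comm (1 - |b|) 0] at this
  have h2 : |(1 - |a|) - (1 - |b|)| ≤ |a - b| := by
    have : (1 - |a|) - (1 - |b|) = |b| - |a| := by ring
    rw [this]
    have := abs_abs_sub_abs_le_abs_sub b a
    rwa [abs_sub_comm b a] at this
  exact h1.trans h2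

/-- Partition of unity in one variable: only two integer translates contribute. -/
theorem tent_add_tent_sub_one {f : ℝ} (h0 : 0 ≤ f) (h1 : f < 1) : tent f + tent (f - 1) = 1 := by
  rw [tent_of_abs_lt (by rw [abs_of_nonneg h0]; exact h1.le),
    tent_of_abs_lt (by rw [abs_of_nonpos (by linarith)]; linarith),
    abs_of_nonneg h0, abs_of_nonpos (by linarith)]
  ring

/-- If `tent (t + k) ≠ 0` for an integer `k`, then `k = -⌊t⌋` or `k = -⌊t⌋ - 1`. -/
theorem eq_of_tent_add_int_ne_zero {t : ℝ} {k : ℤ} (h : tent (t + k) ≠ 0) :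
    k = -⌊t⌋ ∨ k = -⌊t⌋ - 1 := by
  rw [tent_ne_zero_iff, abs_lt] at h
  have h1 := Int.floor_le t
  have h2 := Int.lt_floor_add_one t
  have h3 : ((-⌊t⌋ - 2 : ℤ) : ℝ) < (k : ℝ) := by push_cast; linarith
  have h4 : (k : ℝ) < ((-⌊t⌋ + 1 : ℤ) : ℝ) := by push_cast; linarith
  have h3' : -⌊t⌋ - 2 < k := by exact_mod_cast h3
  have h4' : k < -⌊t⌋ + 1 := by exact_mod_cast h4
  omega

/-- The two relevant integer translates add up to `1`. -/
theorem tent_add_floor (t : ℝ) :
    tent (t + ((-⌊t⌋ : ℤ) : ℝ)) + tent (t + ((-⌊t⌋ - 1 : ℤ) : ℝ)) = 1 := by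
  have h0 : 0 ≤ t - ⌊t⌋ := by have := Int.floor_le t; linarith
  have h1 : t - ⌊t⌋ < 1 := by have := Int.lt_floor_add_one t; linarith
  have := tent_add_tent_sub_one h0 h1
  convert this using 3 <;> push_cast <;> ring

/-- Product of tents. -/
noncomputable def tentProd {r : ℕ} (t : Fin r → ℝ) : ℝ := ∏ i, tent (t i)

theorem tentProd_nonneg {r : ℕ} (t : Fin r → ℝ) : 0 ≤ tentProd t :=
  Finset.prod_nonneg fun i _ => tent_nonneg (t i)

theorem tentProd_le_one {r : ℕ} (t : Fin r → ℝ) : tentProd t ≤ 1 :=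
  Finset.prod_le_one (fun i _ => tent_nonneg (t i)) (fun i _ => tent_le_one (t i))

theorem tentProd_ne_zero_iff {r : ℕ} (t : Fin r → ℝ) : tentProd t ≠ 0 ↔ ∀ i, |t i| < 1 := by
  unfold tentProd
  rw [Finset.prod_ne_zero_iff]
  simp [tent_ne_zero_iff]

theorem abs_tentProd_sub_le {r : ℕ} (t t' : Fin r → ℝ) :
    |tentProd t - tentProd t'| ≤ ∑ i, |t i - t' i| := by
  unfold tentProd
  have key : ∀ (s : Finset (Fin r)),
      |∏ i ∈ s, tent (t i) - ∏ i ∈ s, tent (t' i)| ≤ ∑ i ∈ s, |t i - t' i| := by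
    intro s
    induction s using Finset.induction_on with
    | empty => simp
    | insert a s ha ih =>
      rw [Finset.prod_insert ha, Finset.prod_insert ha, Finset.sum_insert ha]
      have h1 : tent (t a) * ∏ i ∈ s, tent (t i) - tent (t' a) * ∏ i ∈ s, tent (t' i)
          = (tent (t a) - tent (t' a)) * ∏ i ∈ s, tent (t i)
            + tent (t' a) * (∏ i ∈ s, tent (t i) - ∏ i ∈ s, tent (t' i)) := by ring
      rw [h1]
      have hP0 : 0 ≤ ∏ i ∈ s, tent (t i) := Finset.prod_nonneg fun i _ => tent_nonneg _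
      have hP1 : ∏ i ∈ s, tent (t i) ≤ 1 :=
        Finset.prod_le_one (fun i _ => tent_nonneg _) (fun i _ => tent_le_one _)
      calc |(tent (t a) - tent (t' a)) * ∏ i ∈ s, tent (t i)
            + tent (t' a) * (∏ i ∈ s, tent (t i) - ∏ i ∈ s, tent (t' i))|
          ≤ |(tent (t a) - tent (t' a)) * ∏ i ∈ s, tent (t i)|
            + |tent (t' a) * (∏ i ∈ s, tent (t i) - ∏ i ∈ s, tent (t' i))| := abs_add_le _ _
        _ = |tent (t a) - tent (t' a)| * ∏ i ∈ s, tent (t i)
            + tent (t' a) * |∏ i ∈ s, tent (t i) - ∏ i ∈ s, tent (t' i)| := by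
              rw [abs_mul, abs_mul, abs_of_nonneg hP0, abs_of_nonneg (tent_nonneg _)]
        _ ≤ |t a - t' a| * 1 + 1 * ∑ i ∈ s, |t i - t' i| := by
              apply add_le_add
              · exact mul_le_mul (abs_tent_sub_le _ _) hP1 hP0 (abs_nonneg _)
              · exact mul_le_mul (tent_le_one _) ih (abs_nonneg _) zero_le_one
        _ = |t a - t' a| + ∑ i ∈ s, |t i - t' i| := by ring
  exact key Finset.univ

/-- The finite set of integer vectors whose translate can meet the support. -/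
noncomputable def tentSupp {r : ℕ} (t : Fin r → ℝ) : Finset (Fin r → ℤ) :=
  Fintype.piFinset fun i => ({-⌊t i⌋, -⌊t i⌋ - 1} : Finset ℤ)

theorem mem_tentSupp_of_ne_zero {r : ℕ} {t : Fin r → ℝ} {e : Fin r → ℤ}
    (h : tentProd (fun i => t i + e i) ≠ 0) : e ∈ tentSupp t := by
  rw [tentSupp, Fintype.mem_piFinset]
  intro i
  rw [tentProd_ne_zero_iff] at h
  have hi := (tent_ne_zero_iff _).mpr (h i)
  rcases eq_of_tent_add_int_ne_zero hi with h1 | h1 <;> simp [h1]

theorem card_tentSupp {r : ℕ} (t : Fin r → ℝ) : (tentSupp t).card = 2 ^ r := by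
  rw [tentSupp, Fintype.card_piFinset]
  have : ∀ i : Fin r, ({-⌊t i⌋, -⌊t i⌋ - 1} : Finset ℤ).card = 2 := by
    intro i
    rw [Finset.card_pair]
    omega
  simp [this]

theorem sum_tentSupp {r : ℕ} (t : Fin r → ℝ) :
    ∑ e ∈ tentSupp t, tentProd (fun i => t i + e i) = 1 := by
  unfold tentSupp tentProd
  rw [← Finset.prod_univ_sum (fun i => ({-⌊t i⌋, -⌊t i⌋ - 1} : Finset ℤ))
    (fun i (k : ℤ) => tent (t i + k))]
  apply Finset.prod_eq_one
  intro i _
  rw [Finset.sum_pair (by omega)]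
  exact tent_add_floor (t i)

/-- Partition of unity under integer translations (real version). -/
theorem tsum_tentProd_add_int_real {r : ℕ} (t : Fin r → ℝ) :
    ∑' e : Fin r → ℤ, tentProd (fun i => t i + e i) = 1 := by
  rw [tsum_eq_sum (s := tentSupp t)]
  · exact sum_tentSupp t
  · intro e he
    by_contra h
    exact he (mem_tentSupp_of_ne_zero h)

/-- Partition of unity under integer translations. -/
theorem tsum_tentProd_add_int {r : ℕ} (t : Fin r → ℝ) :
    ∑' e : Fin r → ℤ, ENNReal.ofReal (tentProd (fun i => t i + e i)) = 1 := by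
  rw [tsum_eq_sum (s := tentSupp t)]
  · rw [← ENNReal.ofReal_sum_of_nonneg (fun e _ => tentProd_nonneg _), sum_tentSupp,
      ENNReal.ofReal_one]
  · intro e he
    by_contra h
    apply he
    apply mem_tentSupp_of_ne_zero
    intro h0
    exact h (by rw [h0, ENNReal.ofReal_zero])

/-- At most `2 ^ r` integer translates meet the support. -/
theorem tsum_indicator_tentProd_add_int_le {r : ℕ} (t : Fin r → ℝ) :
    ∑' e : Fin r → ℤ, (if tentProd (fun i => t i + e i) ≠ 0 then (1 : ℝ≥0∞) else 0) ≤ 2 ^ r := by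
  rw [tsum_eq_sum (s := tentSupp t)]
  · calc ∑ e ∈ tentSupp t, (if tentProd (fun i => t i + e i) ≠ 0 then (1 : ℝ≥0∞) else 0)
        ≤ ∑ _e ∈ tentSupp t, (1 : ℝ≥0∞) := by
          apply Finset.sum_le_sum
          intro e _
          split_ifs <;> simp
      _ = 2 ^ r := by
          rw [Finset.sum_const, card_tentSupp]
          simp
  · intro e he
    rw [if_neg]
    intro h
    exact he (mem_tentSupp_of_ne_zero h)

end Fermat.Agent.S14.Unfold
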