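import Mathlib
import Fermat.Agent.S14.Unfold.Tent

/-!
# S14 / W5(d) / U1: logarithmic coordinates and the smooth weight

For a number field `K`, `weight K x` is a function of `x : K` which is a partition of unity
(up to the factor `torsionOrder K`) for the action of the units:
`∑_{u ∈ (𝓞 K)ˣ} weight (u x) = torsionOrder K`.
-/

set_option autoImplicit false

namespace Fermat.Agent.S14.Unfold

open NumberField NumberField.InfinitePlace NumberField.Units
  NumberField.Units.dirichletUnitTheorem Module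
open scoped ENNReal

variable (K : Type*) [Field K] [NumberField K]

open scoped Classical in
/-- The real basis of `logSpace K` given by the fundamental system of units. -/
noncomputable def logBasis :=
  (basisUnitLattice K).ofZLatticeBasis ℝ (unitLattice K)

theorem logBasis_apply (i : Fin (rank K)) :
    logBasis K i = logEmbedding K (Additive.ofMul (fundSystem K i)) := by
  rw [logBasis, Basis.ofZLatticeBasis_apply, logEmbedding_fundSystem]

/-- Normalised log map on `K` (`0 ↦ 0`). -/
noncomputable def lm (x : K) : logSpace K := fun w =>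
  mult w.val * (Real.log (w.val x) - Real.log |(Algebra.norm ℚ x : ℝ)| * (finrank ℚ K : ℝ)⁻¹)

theorem lm_apply (x : K) (w : {w : InfinitePlace K // w ≠ w₀}) :
    lm K x w = mult w.val *
      (Real.log (w.val x) - Real.log |(Algebra.norm ℚ x : ℝ)| * (finrank ℚ K : ℝ)⁻¹) := rfl

/-- Coordinates of `lm x` in the basis of fundamental units. -/
noncomputable def coords (x : K) : Fin (rank K) → ℝ := (logBasis K).equivFun (lm K x)

/-- The smooth weight: a partition of unity for the action of units (up to the factor `w`). -/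
noncomputable def weight (x : K) : ℝ := tentProd (coords K x)

theorem weight_nonneg (x : K) : 0 ≤ weight K x := tentProd_nonneg _

theorem weight_le_one (x : K) : weight K x ≤ 1 := tentProd_le_one _

theorem abs_norm_unit_mul (u : (𝓞 K)ˣ) (x : K) :
    |(Algebra.norm ℚ ((u : K) * x) : ℝ)| = |(Algebra.norm ℚ x : ℝ)| := by
  have h := Units.norm K u
  rw [map_mul, Rat.cast_mul, abs_mul]
  have h' : |((Algebra.norm ℚ ((u : 𝓞 K) : K) : ℚ) : ℝ)| = 1 := by
    rw [← Rat.cast_abs]
    exact_mod_cast h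
  rw [h', one_mul]

theorem lm_unit_mul (u : (𝓞 K)ˣ) {x : K} (hx : x ≠ 0) :
    lm K ((u : K) * x) = logEmbedding K (Additive.ofMul u) + lm K x := by
  ext w
  rw [Pi.add_apply, lm_apply, lm_apply, logEmbedding_component, abs_norm_unit_mul, map_mul,
    Real.log_mul]
  · ring
  · exact (map_ne_zero _).mpr (by
      have := u.ne_zero
      exact_mod_cast (RingOfIntegers.coe_ne_zero_iff.mpr this))
  · exact (map_ne_zero _).mpr hx

theorem logEmbedding_torsion_mul_prod (ζ : torsion K) (e : Fin (rank K) → ℤ) :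
    logEmbedding K (Additive.ofMul ((ζ : (𝓞 K)ˣ) * ∏ i, fundSystem K i ^ e i))
      = ∑ i, (e i : ℝ) • logBasis K i := by
  rw [ofMul_mul, map_add, (logEmbedding_eq_zero_iff (K := K)).mpr ζ.2, zero_add, ofMul_prod,
    map_sum]
  refine Finset.sum_congr rfl fun i _ => ?_
  rw [ofMul_zpow, map_zsmul, logBasis_apply, Int.cast_smul_eq_zsmul]

theorem coords_unit_mul (ζ : torsion K) (e : Fin (rank K) → ℤ) {x : K} (hx : x ≠ 0) :
    coords K ((((ζ : (𝓞 K)ˣ) * ∏ i, fundSystem K i ^ e i : (𝓞 K)ˣ) : K) * x)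
      = fun i => coords K x i + e i := by
  unfold coords
  rw [lm_unit_mul K _ hx, logEmbedding_torsion_mul_prod, map_add]
  have h : (logBasis K).equivFun (∑ i, (e i : ℝ) • logBasis K i) = fun i => (e i : ℝ) := by
    rw [← Basis.equivFun_symm_apply, LinearEquiv.apply_symm_apply]
  rw [h]
  funext i
  simp [add_comm]

/-- The units as a product of the torsion and a free part (Dirichlet's unit theorem). -/
noncomputable def unitEquiv : torsion K × (Fin (rank K) → ℤ) ≃ (𝓞 K)ˣ :=
  Equiv.ofBijective (fun ζe => (ζe.1 : (𝓞 K)ˣ) * ∏ i, fundSystem K i ^ ζe.2 i) (by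
    constructor
    · intro a b hab
      obtain ⟨c, _, hc⟩ :=
        exist_unique_eq_mul_prod K ((a.1 : (𝓞 K)ˣ) * ∏ i, fundSystem K i ^ a.2 i)
      exact (hc a rfl).trans (hc b hab).symm
    · intro u
      obtain ⟨c, hc, _⟩ := exist_unique_eq_mul_prod K u
      exact ⟨c, hc.symm⟩)

theorem unitEquiv_apply (ζe : torsion K × (Fin (rank K) → ℤ)) :
    unitEquiv K ζe = (ζe.1 : (𝓞 K)ˣ) * ∏ i, fundSystem K i ^ ζe.2 i := rfl

/-- Sum over the units as a double sum. -/
theorem tsum_units_eq (g : (𝓞 K)ˣ → ℝ≥0∞) :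
    ∑' u : (𝓞 K)ˣ, g u = ∑' ζ : torsion K, ∑' e : Fin (rank K) → ℤ,
      g ((ζ : (𝓞 K)ˣ) * ∏ i, fundSystem K i ^ e i) := by
  rw [← (unitEquiv K).tsum_eq, ENNReal.tsum_prod']
  rfl

theorem tsum_const_torsion (c : ℝ≥0∞) : ∑' _ζ : torsion K, c = torsionOrder K * c := by
  have : Fintype (torsion K) := Fintype.ofFinite _
  rw [tsum_fintype, Finset.sum_const, Finset.card_univ, nsmul_eq_mul, torsionOrder,
    Nat.card_eq_fintype_card]

/-- Unfolding identity: the weights of the associates of `x` add up to `torsionOrder K`. -/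
theorem tsum_weight_unit_mul {x : K} (hx : x ≠ 0) :
    ∑' u : (𝓞 K)ˣ, ENNReal.ofReal (weight K ((u : K) * x)) = torsionOrder K := by
  rw [tsum_units_eq K (fun u => ENNReal.ofReal (weight K ((u : K) * x)))]
  have h : ∀ ζ : torsion K, ∑' e : Fin (rank K) → ℤ,
      ENNReal.ofReal (weight K ((((ζ : (𝓞 K)ˣ) * ∏ i, fundSystem K i ^ e i : (𝓞 K)ˣ) : K) * x))
        = 1 := by
    intro ζ
    simp_rw [weight, coords_unit_mul K ζ _ hx]
    exact tsum_tentProd_add_int (coords K x)
  simp_rw [h]
  rw [tsum_const_torsion, mul_one]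

/-- At most `torsionOrder K * 2 ^ rank K` associates of `x` lie in the support of the weight. -/
theorem tsum_indicator_weight_unit_mul_le {x : K} (hx : x ≠ 0) :
    ∑' u : (𝓞 K)ˣ, (if weight K ((u : K) * x) ≠ 0 then (1 : ℝ≥0∞) else 0)
      ≤ torsionOrder K * 2 ^ rank K := by
  rw [tsum_units_eq K (fun u => if weight K ((u : K) * x) ≠ 0 then (1 : ℝ≥0∞) else 0)]
  have h : ∀ ζ : torsion K, ∑' e : Fin (rank K) → ℤ,
      (if weight K ((((ζ : (𝓞 K)ˣ) * ∏ i, fundSystem K i ^ e i : (𝓞 K)ˣ) : K) * x) ≠ 0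
        then (1 : ℝ≥0∞) else 0) ≤ 2 ^ rank K := by
    intro ζ
    simp_rw [weight, coords_unit_mul K ζ _ hx]
    exact tsum_indicator_tentProd_add_int_le (coords K x)
  calc _ ≤ ∑' _ζ : torsion K, (2 : ℝ≥0∞) ^ rank K := ENNReal.tsum_le_tsum h
    _ = torsionOrder K * 2 ^ rank K := tsum_const_torsion K _

end Fermat.Agent.S14.Unfold
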