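import Mathlib
import Fermat.Agent.S14.Unfold.Weight

/-!
# S14 / W5(d) / U2: on the support of the weight all places are comparable to `|N x|^(1/n)`
-/

set_option autoImplicit false

namespace Fermat.Agent.S14.Unfold

open NumberField NumberField.InfinitePlace NumberField.Units
  NumberField.Units.dirichletUnitTheorem Module
open scoped ENNReal Classical

variable (K : Type*) [Field K] [NumberField K]

theorem sum_mult_log {x : K} (hx : x ≠ 0) :
    ∑ w : InfinitePlace K, (mult w : ℝ) * Real.log (w x) = Real.log |(Algebra.norm ℚ x : ℝ)| := by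
  have h := prod_eq_abs_norm (K := K) x
  have h2 : Real.log (∏ w : InfinitePlace K, w x ^ mult w)
      = ∑ w : InfinitePlace K, (mult w : ℝ) * Real.log (w x) := by
    rw [Real.log_prod]
    · refine Finset.sum_congr rfl fun w _ => ?_
      rw [Real.log_pow]
    · intro w _
      exact pow_ne_zero _ ((map_ne_zero w).mpr hx)
  rw [← h2, h, Rat.cast_abs]

theorem abs_norm_pos {x : K} (hx : x ≠ 0) : 0 < |(Algebra.norm ℚ x : ℝ)| := by
  rw [abs_pos]
  exact_mod_cast (Algebra.norm_ne_zero_iff (R := ℚ)).mpr hx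

/-- The bound `M = ∑ i, ‖logBasis K i‖` for `‖lm x‖` on the support of the weight. -/
noncomputable def lmBound : ℝ := ∑ i, ‖logBasis K i‖

theorem lmBound_nonneg : 0 ≤ lmBound K := Finset.sum_nonneg fun _ _ => norm_nonneg _

theorem norm_lm_le_of_weight_ne_zero {x : K} (hw : weight K x ≠ 0) : ‖lm K x‖ ≤ lmBound K := by
  have hc : ∀ i, |coords K x i| < 1 := (tentProd_ne_zero_iff _).mp hw
  have h := (logBasis K).sum_equivFun (lm K x)
  rw [← h]
  calc ‖∑ i, (logBasis K).equivFun (lm K x) i • logBasis K i‖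
      ≤ ∑ i, ‖(logBasis K).equivFun (lm K x) i • logBasis K i‖ := norm_sum_le _ _
    _ ≤ ∑ i, ‖logBasis K i‖ := by
        refine Finset.sum_le_sum fun i _ => ?_
        rw [norm_smul, Real.norm_eq_abs]
        calc |(logBasis K).equivFun (lm K x) i| * ‖logBasis K i‖
            ≤ 1 * ‖logBasis K i‖ :=
              mul_le_mul_of_nonneg_right (hc i).le (norm_nonneg _)
          _ = ‖logBasis K i‖ := one_mul _

/-- The normalised log of `x` at the place `w`. -/
noncomputable def nlog (x : K) (w : InfinitePlace K) : ℝ :=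
  Real.log (w x) - Real.log |(Algebra.norm ℚ x : ℝ)| * (finrank ℚ K : ℝ)⁻¹

theorem sum_mult_nlog {x : K} (hx : x ≠ 0) :
    ∑ w : InfinitePlace K, (mult w : ℝ) * nlog K x w = 0 := by
  unfold nlog
  simp_rw [mul_sub]
  rw [Finset.sum_sub_distrib, sum_mult_log K hx, ← Finset.sum_mul]
  have h : (∑ w : InfinitePlace K, (mult w : ℝ)) = (finrank ℚ K : ℝ) := by
    exact_mod_cast sum_mult_eq (K := K)
  rw [h]
  have hn : (finrank ℚ K : ℝ) ≠ 0 := Nat.cast_ne_zero.mpr finrank_pos.ne'
  field_simp
  ring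

theorem abs_nlog_le_of_weight_ne_zero {x : K} (hx : x ≠ 0) (hw : weight K x ≠ 0)
    (w : InfinitePlace K) :
    |nlog K x w| ≤ Fintype.card (InfinitePlace K) * lmBound K := by
  have hM := lmBound_nonneg K
  have hlm := norm_lm_le_of_weight_ne_zero K hw
  have hcard : (1 : ℝ) ≤ Fintype.card (InfinitePlace K) := by
    exact_mod_cast Fintype.card_pos
  -- the components away from `w₀`
  have h1 : ∀ w' : {w : InfinitePlace K // w ≠ w₀}, |(mult w'.val : ℝ) * nlog K x w'.val|
      ≤ lmBound K := by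
    intro w'
    have := norm_le_pi_norm (lm K x) w'
    rw [Real.norm_eq_abs, lm_apply] at this
    exact this.trans hlm
  have hmult : ∀ w' : InfinitePlace K, |nlog K x w'| ≤ |(mult w' : ℝ) * nlog K x w'| := by
    intro w'
    rw [abs_mul]
    have : (1 : ℝ) ≤ |(mult w' : ℝ)| := by
      rw [abs_of_nonneg (Nat.cast_nonneg _)]
      exact one_le_mult
    calc |nlog K x w'| = 1 * |nlog K x w'| := (one_mul _).symm
      _ ≤ |(mult w' : ℝ)| * |nlog K x w'| := mul_le_mul_of_nonneg_right this (abs_nonneg _)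
  by_cases hw0 : w = w₀
  · -- the place `w₀`, via the sum formula
    have hsum := sum_mult_nlog K hx
    rw [Fintype.sum_eq_add_sum_subtype_ne _ (w₀ : InfinitePlace K)] at hsum
    have h2 : (mult (w₀ : InfinitePlace K) : ℝ) * nlog K x w₀
        = -∑ w' : {w : InfinitePlace K // w ≠ w₀}, (mult w'.val : ℝ) * nlog K x w'.val := by
      linarith
    have h3 : |(mult (w₀ : InfinitePlace K) : ℝ) * nlog K x w₀|
        ≤ Fintype.card {w : InfinitePlace K // w ≠ w₀} * lmBound K := by
      rw [h2, abs_neg]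
      calc |∑ w' : {w : InfinitePlace K // w ≠ w₀}, (mult w'.val : ℝ) * nlog K x w'.val|
          ≤ ∑ w' : {w : InfinitePlace K // w ≠ w₀}, |(mult w'.val : ℝ) * nlog K x w'.val| :=
            Finset.abs_sum_le_sum_abs _ _
        _ ≤ ∑ _w' : {w : InfinitePlace K // w ≠ w₀}, lmBound K :=
            Finset.sum_le_sum fun w' _ => h1 w'
        _ = Fintype.card {w : InfinitePlace K // w ≠ w₀} * lmBound K := by
            rw [Finset.sum_const, Finset.card_univ, nsmul_eq_mul]
    have h4 : (Fintype.card {w : InfinitePlace K // w ≠ w₀} : ℝ)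
        ≤ Fintype.card (InfinitePlace K) := by
      exact_mod_cast Fintype.card_subtype_le _
    rw [hw0]
    calc |nlog K x w₀| ≤ |(mult (w₀ : InfinitePlace K) : ℝ) * nlog K x w₀| := hmult _
      _ ≤ Fintype.card {w : InfinitePlace K // w ≠ w₀} * lmBound K := h3
      _ ≤ Fintype.card (InfinitePlace K) * lmBound K :=
          mul_le_mul_of_nonneg_right h4 hM
  · calc |nlog K x w| ≤ |(mult w : ℝ) * nlog K x w| := hmult _
      _ ≤ lmBound K := h1 ⟨w, hw0⟩
      _ = 1 * lmBound K := (one_mul _).symm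
      _ ≤ Fintype.card (InfinitePlace K) * lmBound K :=
          mul_le_mul_of_nonneg_right hcard hM

/-- The constant `c = exp (-(#places) * M)`. -/
noncomputable def placeConst : ℝ :=
  Real.exp (-(Fintype.card (InfinitePlace K) * lmBound K))

theorem placeConst_pos : 0 < placeConst K := Real.exp_pos _

/-- On the support of the weight, every place is at least `c * |N x|^(1/n)`. -/
theorem placeConst_mul_le {x : K} (hx : x ≠ 0) (hw : weight K x ≠ 0) (w : InfinitePlace K) :
    placeConst K * |(Algebra.norm ℚ x : ℝ)| ^ ((finrank ℚ K : ℝ)⁻¹) ≤ w x := by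
  have hN := abs_norm_pos K hx
  have hwx : 0 < w x := pos_iff.mpr hx
  have h := abs_nlog_le_of_weight_ne_zero K hx hw w
  rw [abs_le] at h
  have h1 := h.1
  unfold nlog at h1
  rw [Real.rpow_def_of_pos hN, placeConst, ← Real.exp_add, ← Real.exp_log hwx]
  apply Real.exp_le_exp.mpr
  linarith

theorem exists_place_ge_of_weight_ne_zero :
    ∃ c : ℝ, 0 < c ∧ ∀ x : K, x ≠ 0 → weight K x ≠ 0 → ∀ w : InfinitePlace K,
      c * |(Algebra.norm ℚ x : ℝ)| ^ ((finrank ℚ K : ℝ)⁻¹) ≤ w x :=
  ⟨placeConst K, placeConst_pos K, fun _ hx hw w => placeConst_mul_le K hx hw w⟩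

end Fermat.Agent.S14.Unfold
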