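import Mathlib
import Fermat.Agent.S14.Unfold.Places

/-!
# S14 / W5(d) / U3: the pointwise shift estimate

`fs s x = weight x * |N x|^(-s)` changes by at most `C * |N x|^(-(1 + 1/n))` when `x` is moved
by a bounded amount, uniformly for `s ∈ [1, 2]`.
-/

set_option autoImplicit false

namespace Fermat.Agent.S14.Unfold

open NumberField NumberField.InfinitePlace NumberField.Units
  NumberField.Units.dirichletUnitTheorem Module
open scoped ENNReal Classical

/-! ### elementary real estimates -/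

theorem abs_log_sub_log_le {a b δ : ℝ} (ha : 0 < a) (hδ : δ ≤ 1 / 2) (hab : |b - a| ≤ δ * a) :
    0 < b ∧ |Real.log b - Real.log a| ≤ 2 * δ := by
  have hδ0 : 0 ≤ δ := by
    by_contra h
    rw [not_le] at h
    have : δ * a < 0 := mul_neg_of_neg_of_pos h ha
    linarith [abs_nonneg (b - a)]
  rw [abs_le] at hab
  have hb : 0 < b := by nlinarith
  refine ⟨hb, ?_⟩
  rw [← Real.log_div hb.ne' ha.ne', abs_le]
  have hq : 0 < b / a := div_pos hb ha
  constructor
  · have h1 := Real.one_sub_inv_le_log_of_pos hq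
    have h2 : -(2 * δ) ≤ 1 - (b / a)⁻¹ := by
      rw [inv_div, le_sub_iff_add_le, ← le_sub_iff_add_le', div_le_iff₀ hb]
      nlinarith
    linarith
  · have h1 := Real.log_le_sub_one_of_pos hq
    have h2 : b / a - 1 ≤ δ := by
      rw [sub_le_iff_le_add, div_le_iff₀ ha]
      nlinarith
    linarith

theorem abs_exp_sub_one_le' (t : ℝ) : |Real.exp t - 1| ≤ |t| * Real.exp |t| := by
  rcases le_total 0 t with h | h
  · rw [abs_of_nonneg h, abs_of_nonneg (by linarith [Real.add_one_le_exp t])]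
    have h1 := Real.one_sub_le_exp_neg t
    rw [Real.exp_neg] at h1
    have hpos := Real.exp_pos t
    have h2 : 1 - (Real.exp t)⁻¹ ≤ t := by linarith
    have h3 : Real.exp t - 1 = (1 - (Real.exp t)⁻¹) * Real.exp t := by
      field_simp
    rw [h3]
    exact mul_le_mul_of_nonneg_right h2 hpos.le
  · have h1 := Real.add_one_le_exp t
    have h2 : Real.exp t ≤ 1 := by
      rw [← Real.exp_zero]
      exact Real.exp_le_exp.mpr h
    rw [abs_of_nonpos (by linarith), abs_of_nonpos h]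
    have h3 : 1 ≤ Real.exp (-t) := by
      rw [← Real.exp_zero]
      exact Real.exp_le_exp.mpr (by linarith)
    nlinarith

variable (K : Type*) [Field K] [NumberField K]

/-! ### definitions -/

/-- `f_s x = W(x) |N x|^{-s}` (`0` at `x = 0`). -/
noncomputable def fs (s : ℝ) (x : K) : ℝ :=
  if x = 0 then 0 else weight K x * |(Algebra.norm ℚ x : ℝ)| ^ (-s)

/-- The majorant: `|N x|^{-(1 + 1/n)}` on the support of the weight (`0` at `x = 0`). -/
noncomputable def hmaj (x : K) : ℝ :=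
  if x = 0 ∨ weight K x = 0 then 0
  else |(Algebra.norm ℚ x : ℝ)| ^ (-(1 + (finrank ℚ K : ℝ)⁻¹))

theorem fs_nonneg (s : ℝ) (x : K) : 0 ≤ fs K s x := by
  unfold fs
  split_ifs
  · exact le_rfl
  · exact mul_nonneg (weight_nonneg K x) (Real.rpow_nonneg (abs_nonneg _) _)

theorem hmaj_nonneg (x : K) : 0 ≤ hmaj K x := by
  unfold hmaj
  split_ifs
  · exact le_rfl
  · exact Real.rpow_nonneg (abs_nonneg _) _

theorem fs_of_ne_zero (s : ℝ) {x : K} (hx : x ≠ 0) :
    fs K s x = weight K x * |(Algebra.norm ℚ x : ℝ)| ^ (-s) := by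
  rw [fs, if_neg hx]

theorem fs_eq_zero_of_weight_eq_zero (s : ℝ) {x : K} (h : x = 0 ∨ weight K x = 0) :
    fs K s x = 0 := by
  unfold fs
  split_ifs with h0
  · rfl
  · rcases h with h | h
    · exact absurd h h0
    · rw [h, zero_mul]

theorem hmaj_of_ne_zero {x : K} (hx : x ≠ 0) (hw : weight K x ≠ 0) :
    hmaj K x = |(Algebra.norm ℚ x : ℝ)| ^ (-(1 + (finrank ℚ K : ℝ)⁻¹)) := by
  rw [hmaj, if_neg (by push Not; exact ⟨hx, hw⟩)]

/-! ### integrality -/

theorem one_le_abs_norm_of_ne_zero {x : 𝓞 K} (hx : x ≠ 0) :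
    1 ≤ |(Algebra.norm ℚ (x : K) : ℝ)| := by
  rw [← Algebra.coe_norm_int]
  have h : Algebra.norm ℤ x ≠ 0 := (Algebra.norm_ne_zero_iff).mpr hx
  have h1 : (1 : ℤ) ≤ |Algebra.norm ℤ x| := Int.one_le_abs h
  have : ((1 : ℤ) : ℝ) ≤ ((|Algebra.norm ℤ x| : ℤ) : ℝ) := by exact_mod_cast h1
  simpa using this

theorem fs_le_one {s : ℝ} (hs : 0 ≤ s) (x : 𝓞 K) : fs K s (x : K) ≤ 1 := by
  by_cases hx : x = 0
  · rw [hx]
    simp [fs]
  · have hx' : (x : K) ≠ 0 := RingOfIntegers.coe_ne_zero_iff.mpr hx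
    rw [fs_of_ne_zero K s hx']
    have h1 := one_le_abs_norm_of_ne_zero K hx
    have h2 : |(Algebra.norm ℚ (x : K) : ℝ)| ^ (-s) ≤ 1 :=
      Real.rpow_le_one_of_one_le_of_nonpos h1 (by linarith)
    calc weight K (x : K) * |(Algebra.norm ℚ (x : K) : ℝ)| ^ (-s)
        ≤ 1 * 1 := mul_le_mul (weight_le_one K _) h2 (Real.rpow_nonneg (abs_nonneg _) _) zero_le_one
      _ = 1 := one_mul 1

/-! ### coordinates are Lipschitz in `lm` -/

theorem exists_coords_bound :
    ∃ A : ℝ, 0 ≤ A ∧ ∀ (z : logSpace K) (i : Fin (rank K)),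
      |(logBasis K).equivFun z i| ≤ A * ‖z‖ := by
  let f : logSpace K →L[ℝ] (Fin (rank K) → ℝ) :=
    LinearMap.toContinuousLinearMap ((logBasis K).equivFun : logSpace K →ₗ[ℝ] (Fin (rank K) → ℝ))
  refine ⟨‖f‖, norm_nonneg _, fun z i => ?_⟩
  have h1 : ‖f z‖ ≤ ‖f‖ * ‖z‖ := f.le_opNorm z
  have h2 : ‖(f z) i‖ ≤ ‖f z‖ := norm_le_pi_norm (f z) i
  rw [Real.norm_eq_abs] at h2
  exact h2.trans h1

omit [NumberField K] in
theorem mult_le_two (w : InfinitePlace K) : (mult w : ℝ) ≤ 2 := by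
  unfold mult
  split_ifs <;> norm_num

/-! ### the main estimate -/

/-- Main estimate: if `x` is in the support of the weight, `|N x|` is large and `y` is within
`D` of `x` at every place, then `y ≠ 0` and `|f_s y - f_s x| ≤ C |N x|^(-(1+1/n))`. -/
theorem exists_main_estimate (D : ℝ) (hD : 0 ≤ D) :
    ∃ X₀ : ℝ, 1 ≤ X₀ ∧ ∃ C : ℝ, 0 ≤ C ∧ ∀ s : ℝ, 1 ≤ s → s ≤ 2 → ∀ x y : K, x ≠ 0 →
      weight K x ≠ 0 → X₀ ≤ |(Algebra.norm ℚ x : ℝ)| → (∀ w : InfinitePlace K, w (y - x) ≤ D) →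
      y ≠ 0 ∧ |fs K s y - fs K s x|
        ≤ C * |(Algebra.norm ℚ x : ℝ)| ^ (-(1 + (finrank ℚ K : ℝ)⁻¹)) := by
  obtain ⟨A, hA0, hA⟩ := exists_coords_bound K
  set c := placeConst K with hc_def
  have hc : 0 < c := placeConst_pos K
  set n : ℝ := (finrank ℚ K : ℝ) with hn_def
  have hn1 : (1 : ℝ) ≤ n := by
    rw [hn_def]; exact_mod_cast (finrank_pos : 0 < finrank ℚ K)
  have hn0 : 0 < n := by linarith
  set r : ℝ := (rank K : ℝ) with hr_def
  have hr0 : 0 ≤ r := Nat.cast_nonneg _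
  refine ⟨max 1 ((2 * D / c) ^ (finrank ℚ K)), le_max_left _ _,
    D / c * ((8 * r * A + 4 * n) * Real.exp (2 * n)), ?_, ?_⟩
  · have : 0 ≤ D / c := div_nonneg hD hc.le
    have : 0 ≤ 8 * r * A + 4 * n := by positivity
    positivity
  intro s hs1 hs2 x y hx hw hX hy
  set N : ℝ := |(Algebra.norm ℚ x : ℝ)| with hN_def
  have hN1 : 1 ≤ N := (le_max_left _ _).trans hX
  have hN0 : 0 < N := by linarith
  set ρ : ℝ := N ^ (n⁻¹) with hρ_def
  have hρ0 : 0 < ρ := Real.rpow_pos_of_pos hN0 _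
  -- `ρ ≥ 2 D / c`
  have hρ : 2 * D / c ≤ ρ := by
    have h1 : (2 * D / c) ^ (finrank ℚ K) ≤ N := (le_max_right _ _).trans hX
    have h2 : 0 ≤ 2 * D / c := by positivity
    have h3 : ((2 * D / c) ^ (finrank ℚ K)) ^ (n⁻¹) ≤ N ^ (n⁻¹) :=
      Real.rpow_le_rpow (by positivity) h1 (by positivity)
    rwa [hn_def, Real.pow_rpow_inv_natCast h2 finrank_pos.ne'] at h3
  set δ : ℝ := D / (c * ρ) with hδ_def
  have hδ0 : 0 ≤ δ := by positivity
  have hδ : δ ≤ 1 / 2 := by
    rw [hδ_def, div_le_iff₀ (by positivity)]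
    rw [div_le_iff₀ hc] at hρ
    linarith
  have hDδ : D = δ * (c * ρ) := by
    rw [hδ_def]; field_simp
  -- places of `x`
  have hplace : ∀ w : InfinitePlace K, c * ρ ≤ w x := fun w => placeConst_mul_le K hx hw w
  -- log estimates at each place
  have hlog : ∀ w : InfinitePlace K, 0 < w y ∧ |Real.log (w y) - Real.log (w x)| ≤ 2 * δ := by
    intro w
    have hwx : 0 < w x := pos_iff.mpr hx
    apply abs_log_sub_log_le hwx hδ
    have h1 : |w y - w x| ≤ w (y - x) := w.1.abs_abv_sub_le_abv_sub y x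
    calc |w y - w x| ≤ w (y - x) := h1
      _ ≤ D := hy w
      _ = δ * (c * ρ) := hDδ
      _ ≤ δ * w x := mul_le_mul_of_nonneg_left (hplace w) hδ0
  have hy0 : y ≠ 0 := by
    obtain ⟨w⟩ := (inferInstance : Nonempty (InfinitePlace K))
    exact pos_iff.mp (hlog w).1
  refine ⟨hy0, ?_⟩
  -- log of norms
  set Lx : ℝ := Real.log |(Algebra.norm ℚ x : ℝ)| with hLx
  set Ly : ℝ := Real.log |(Algebra.norm ℚ y : ℝ)| with hLy
  set z : ℝ := Ly - Lx with hz_def
  have hsum : (∑ w : InfinitePlace K, (mult w : ℝ)) = n := by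
    rw [hn_def]; exact_mod_cast sum_mult_eq (K := K)
  have hz : |z| ≤ 2 * n * δ := by
    rw [hz_def, hLx, hLy, ← sum_mult_log K hx, ← sum_mult_log K hy0, ← Finset.sum_sub_distrib]
    calc |∑ w : InfinitePlace K, ((mult w : ℝ) * Real.log (w y) - (mult w : ℝ) * Real.log (w x))|
        ≤ ∑ w : InfinitePlace K, |(mult w : ℝ) * Real.log (w y) - (mult w : ℝ) * Real.log (w x)| :=
          Finset.abs_sum_le_sum_abs _ _
      _ ≤ ∑ w : InfinitePlace K, (mult w : ℝ) * (2 * δ) := by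
          refine Finset.sum_le_sum fun w _ => ?_
          rw [← mul_sub, abs_mul, abs_of_nonneg (Nat.cast_nonneg _)]
          exact mul_le_mul_of_nonneg_left (hlog w).2 (Nat.cast_nonneg _)
      _ = 2 * n * δ := by rw [← Finset.sum_mul, hsum]; ring
  -- `lm`
  have hlm : ‖lm K y - lm K x‖ ≤ 8 * δ := by
    rw [pi_norm_le_iff_of_nonneg (by positivity)]
    intro w
    rw [Pi.sub_apply, lm_apply, lm_apply, Real.norm_eq_abs, ← mul_sub, abs_mul,
      abs_of_nonneg (Nat.cast_nonneg _)]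
    have h1 : |(Real.log (w.val y) - Ly * n⁻¹) - (Real.log (w.val x) - Lx * n⁻¹)| ≤ 4 * δ := by
      have e : (Real.log (w.val y) - Ly * n⁻¹) - (Real.log (w.val x) - Lx * n⁻¹)
          = (Real.log (w.val y) - Real.log (w.val x)) - z * n⁻¹ := by rw [hz_def]; ring
      rw [e]
      have h2 : |z * n⁻¹| ≤ 2 * δ := by
        rw [abs_mul, abs_of_pos (inv_pos.mpr hn0), ← div_eq_mul_inv, div_le_iff₀ hn0]
        linarith
      calc |(Real.log (w.val y) - Real.log (w.val x)) - z * n⁻¹|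
          ≤ |Real.log (w.val y) - Real.log (w.val x)| + |z * n⁻¹| := abs_sub _ _
        _ ≤ 2 * δ + 2 * δ := add_le_add (hlog w.val).2 h2
        _ = 4 * δ := by ring
    calc (mult w.val : ℝ) * |(Real.log (w.val y) - Ly * n⁻¹) - (Real.log (w.val x) - Lx * n⁻¹)|
        ≤ 2 * (4 * δ) := mul_le_mul (mult_le_two K w.val) h1 (abs_nonneg _) (by norm_num)
      _ = 8 * δ := by ring
  -- weight
  have hweight : |weight K y - weight K x| ≤ r * A * (8 * δ) := by
    unfold weight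
    calc |tentProd (coords K y) - tentProd (coords K x)|
        ≤ ∑ i, |coords K y i - coords K x i| := abs_tentProd_sub_le _ _
      _ ≤ ∑ _i : Fin (rank K), A * (8 * δ) := by
          refine Finset.sum_le_sum fun i _ => ?_
          have e : coords K y i - coords K x i = (logBasis K).equivFun (lm K y - lm K x) i := by
            unfold coords
            rw [map_sub, Pi.sub_apply]
          rw [e]
          exact (hA _ i).trans (mul_le_mul_of_nonneg_left hlm hA0)
      _ = r * A * (8 * δ) := by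
          rw [Finset.sum_const, Finset.card_univ, Fintype.card_fin, nsmul_eq_mul, hr_def]
          ring
  -- the norms
  have hNy0 : 0 < |(Algebra.norm ℚ y : ℝ)| := abs_norm_pos K hy0
  have hpow : |(Algebra.norm ℚ y : ℝ)| ^ (-s) = N ^ (-s) * Real.exp (-s * z) := by
    rw [Real.rpow_def_of_pos hNy0, Real.rpow_def_of_pos hN0, ← Real.exp_add]
    congr 1
    rw [hz_def, hLy, hLx, hN_def]
    ring
  have hsz : |(-s * z)| ≤ 4 * n * δ := by
    rw [abs_mul, abs_neg, abs_of_nonneg (by linarith : 0 ≤ s)]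
    calc s * |z| ≤ 2 * (2 * n * δ) := mul_le_mul hs2 hz (abs_nonneg _) (by norm_num)
      _ = 4 * n * δ := by ring
  have hsz2 : |(-s * z)| ≤ 2 * n := by
    calc |(-s * z)| ≤ 4 * n * δ := hsz
      _ ≤ 4 * n * (1 / 2) := mul_le_mul_of_nonneg_left hδ (by positivity)
      _ = 2 * n := by ring
  have hexp1 : Real.exp (-s * z) ≤ Real.exp (2 * n) :=
    Real.exp_le_exp.mpr ((le_abs_self _).trans hsz2)
  have hexp2 : |Real.exp (-s * z) - 1| ≤ 4 * n * δ * Real.exp (2 * n) := by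
    calc |Real.exp (-s * z) - 1| ≤ |(-s * z)| * Real.exp |(-s * z)| := abs_exp_sub_one_le' _
      _ ≤ 4 * n * δ * Real.exp (2 * n) :=
          mul_le_mul hsz (Real.exp_le_exp.mpr hsz2) (Real.exp_pos _).le (by positivity)
  -- assemble
  rw [fs_of_ne_zero K s hy0, fs_of_ne_zero K s hx, hpow]
  have e : weight K y * (N ^ (-s) * Real.exp (-s * z)) - weight K x * N ^ (-s)
      = N ^ (-s) * ((weight K y - weight K x) * Real.exp (-s * z)
          + weight K x * (Real.exp (-s * z) - 1)) := by ring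
  rw [e, abs_mul, abs_of_nonneg (Real.rpow_nonneg hN0.le _)]
  have hbr : |(weight K y - weight K x) * Real.exp (-s * z)
      + weight K x * (Real.exp (-s * z) - 1)| ≤ δ * ((8 * r * A + 4 * n) * Real.exp (2 * n)) := by
    calc |(weight K y - weight K x) * Real.exp (-s * z) + weight K x * (Real.exp (-s * z) - 1)|
        ≤ |(weight K y - weight K x) * Real.exp (-s * z)|
          + |weight K x * (Real.exp (-s * z) - 1)| := abs_add_le _ _
      _ = |weight K y - weight K x| * Real.exp (-s * z)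
          + weight K x * |Real.exp (-s * z) - 1| := by
            rw [abs_mul, abs_mul, abs_of_pos (Real.exp_pos _), abs_of_nonneg (weight_nonneg K x)]
      _ ≤ r * A * (8 * δ) * Real.exp (2 * n) + 1 * (4 * n * δ * Real.exp (2 * n)) := by
            apply add_le_add
            · exact mul_le_mul hweight hexp1 (Real.exp_pos _).le (by positivity)
            · exact mul_le_mul (weight_le_one K x) hexp2 (abs_nonneg _) zero_le_one
      _ = δ * ((8 * r * A + 4 * n) * Real.exp (2 * n)) := by ring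
  -- `N^(-s) * δ ≤ (D / c) * N^(-(1 + 1/n))`
  have hNs : N ^ (-s) * δ ≤ D / c * N ^ (-(1 + n⁻¹)) := by
    have h1 : N ^ (-s) ≤ N ^ (-1 : ℝ) := Real.rpow_le_rpow_of_exponent_le hN1 (by linarith)
    have h2 : δ = D / c * N ^ (-(n⁻¹)) := by
      rw [hδ_def, hρ_def, Real.rpow_neg hN0.le]
      field_simp
    have h3 : N ^ (-(1 + n⁻¹)) = N ^ (-1 : ℝ) * N ^ (-(n⁻¹)) := by
      rw [← Real.rpow_add hN0]; congr 1; ring
    rw [h2, h3]
    have h4 : 0 ≤ D / c * N ^ (-(n⁻¹)) := by positivity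
    calc N ^ (-s) * (D / c * N ^ (-(n⁻¹))) ≤ N ^ (-1 : ℝ) * (D / c * N ^ (-(n⁻¹))) :=
          mul_le_mul_of_nonneg_right h1 h4
      _ = D / c * (N ^ (-1 : ℝ) * N ^ (-(n⁻¹))) := by ring
  have hK0 : 0 ≤ (8 * r * A + 4 * n) * Real.exp (2 * n) := by positivity
  calc N ^ (-s) * |(weight K y - weight K x) * Real.exp (-s * z)
        + weight K x * (Real.exp (-s * z) - 1)|
      ≤ N ^ (-s) * (δ * ((8 * r * A + 4 * n) * Real.exp (2 * n))) :=
        mul_le_mul_of_nonneg_left hbr (Real.rpow_nonneg hN0.le _)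
    _ = (N ^ (-s) * δ) * ((8 * r * A + 4 * n) * Real.exp (2 * n)) := by ring
    _ ≤ (D / c * N ^ (-(1 + n⁻¹))) * ((8 * r * A + 4 * n) * Real.exp (2 * n)) :=
        mul_le_mul_of_nonneg_right hNs hK0
    _ = D / c * ((8 * r * A + 4 * n) * Real.exp (2 * n)) * N ^ (-(1 + n⁻¹)) := by ring

/-! ### the pointwise shift estimate -/

/-- Pointwise shift estimate, uniform in `s ∈ [1, 2]`. -/
theorem abs_fs_add_sub_le (v : 𝓞 K) :
    ∃ C : ℝ, 0 ≤ C ∧ ∀ s : ℝ, 1 ≤ s → s ≤ 2 → ∀ x : 𝓞 K,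
      |fs K s ((x + v : 𝓞 K) : K) - fs K s (x : K)|
        ≤ C * (hmaj K (x : K) + hmaj K ((x + v : 𝓞 K) : K)) := by
  set D : ℝ := ∑ w : InfinitePlace K, w (v : K) with hD_def
  have hD : 0 ≤ D := Finset.sum_nonneg fun w _ => apply_nonneg w _
  have hDw : ∀ w : InfinitePlace K, w (v : K) ≤ D := fun w =>
    Finset.single_le_sum (f := fun w : InfinitePlace K => w (v : K))
      (fun w _ => apply_nonneg w _) (Finset.mem_univ w)
  obtain ⟨X₀, hX1, C, hC0, hME⟩ := exists_main_estimate K D hD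
  set n : ℝ := (finrank ℚ K : ℝ) with hn_def
  have hn0 : 0 < n := by
    rw [hn_def]; exact_mod_cast (finrank_pos : 0 < finrank ℚ K)
  set E : ℝ := X₀ ^ (1 + n⁻¹) with hE_def
  have hE0 : 0 ≤ E := Real.rpow_nonneg (by linarith) _
  have hexp0 : 0 ≤ 1 + n⁻¹ := by positivity
  refine ⟨max C E, hC0.trans (le_max_left _ _), ?_⟩
  intro s hs1 hs2 x
  have hs0 : 0 ≤ s := by linarith
  -- small-norm bound: if `a` is in the support and `|N a| < X₀` then `1 ≤ E * hmaj a`
  have hsmall : ∀ a : 𝓞 K, (a : K) ≠ 0 → weight K (a : K) ≠ 0 →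
      |(Algebra.norm ℚ (a : K) : ℝ)| < X₀ → 1 ≤ E * hmaj K (a : K) := by
    intro a ha hwa hlt
    have ha' : a ≠ 0 := RingOfIntegers.coe_ne_zero_iff.mp ha
    have hN1 := one_le_abs_norm_of_ne_zero K ha'
    have hN0 : 0 < |(Algebra.norm ℚ (a : K) : ℝ)| := by linarith
    rw [hmaj_of_ne_zero K ha hwa, Real.rpow_neg hN0.le, hE_def, ← div_eq_mul_inv,
      le_div_iff₀ (Real.rpow_pos_of_pos hN0 _), one_mul]
    exact Real.rpow_le_rpow hN0.le hlt.le hexp0
  -- general bound `|fs b - fs a| ≤ 1` for integers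
  have hone : ∀ a b : 𝓞 K, |fs K s (b : K) - fs K s (a : K)| ≤ 1 := by
    intro a b
    rw [abs_le]
    constructor
    · linarith [fs_nonneg K s (b : K), fs_le_one K hs0 a]
    · linarith [fs_nonneg K s (a : K), fs_le_one K hs0 b]
  have hhx := hmaj_nonneg K (x : K)
  have hhy := hmaj_nonneg K ((x + v : 𝓞 K) : K)
  have hmaxC : C ≤ max C E := le_max_left _ _
  have hmaxE : E ≤ max C E := le_max_right _ _
  have hmax0 : 0 ≤ max C E := hC0.trans hmaxC
  by_cases hcase : (x : K) ≠ 0 ∧ weight K (x : K) ≠ 0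
  · obtain ⟨hx, hw⟩ := hcase
    by_cases hX : X₀ ≤ |(Algebra.norm ℚ (x : K) : ℝ)|
    · have hy : ∀ w : InfinitePlace K, w (((x + v : 𝓞 K) : K) - (x : K)) ≤ D := by
        intro w
        have : ((x + v : 𝓞 K) : K) - (x : K) = (v : K) := by push_cast; ring
        rw [this]
        exact hDw w
      obtain ⟨-, h⟩ := hME s hs1 hs2 (x : K) ((x + v : 𝓞 K) : K) hx hw hX hy
      rw [← hmaj_of_ne_zero K hx hw] at h
      calc |fs K s ((x + v : 𝓞 K) : K) - fs K s (x : K)| ≤ C * hmaj K (x : K) := h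
        _ ≤ max C E * hmaj K (x : K) := mul_le_mul_of_nonneg_right hmaxC hhx
        _ ≤ max C E * (hmaj K (x : K) + hmaj K ((x + v : 𝓞 K) : K)) :=
            mul_le_mul_of_nonneg_left (by linarith) hmax0
    · rw [not_le] at hX
      calc |fs K s ((x + v : 𝓞 K) : K) - fs K s (x : K)| ≤ 1 := hone _ _
        _ ≤ E * hmaj K (x : K) := hsmall x hx hw hX
        _ ≤ max C E * hmaj K (x : K) := mul_le_mul_of_nonneg_right hmaxE hhx
        _ ≤ max C E * (hmaj K (x : K) + hmaj K ((x + v : 𝓞 K) : K)) :=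
            mul_le_mul_of_nonneg_left (by linarith) hmax0
  · have hx0 : fs K s (x : K) = 0 := by
      apply fs_eq_zero_of_weight_eq_zero
      by_contra h
      push Not at h
      exact hcase h
    rw [hx0, sub_zero]
    by_cases hcase2 : ((x + v : 𝓞 K) : K) ≠ 0 ∧ weight K ((x + v : 𝓞 K) : K) ≠ 0
    · obtain ⟨hy, hwy⟩ := hcase2
      by_cases hX : X₀ ≤ |(Algebra.norm ℚ ((x + v : 𝓞 K) : K) : ℝ)|
      · have hxy : ∀ w : InfinitePlace K, w ((x : K) - ((x + v : 𝓞 K) : K)) ≤ D := by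
          intro w
          have : (x : K) - ((x + v : 𝓞 K) : K) = -(v : K) := by push_cast; ring
          rw [this, show w (-(v : K)) = w (v : K) from w.1.map_neg _]
          exact hDw w
        obtain ⟨-, h⟩ := hME s hs1 hs2 ((x + v : 𝓞 K) : K) (x : K) hy hwy hX hxy
        rw [← hmaj_of_ne_zero K hy hwy, hx0, zero_sub, abs_neg] at h
        calc |fs K s ((x + v : 𝓞 K) : K)| ≤ C * hmaj K ((x + v : 𝓞 K) : K) := h
          _ ≤ max C E * hmaj K ((x + v : 𝓞 K) : K) := mul_le_mul_of_nonneg_right hmaxC hhy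
          _ ≤ max C E * (hmaj K (x : K) + hmaj K ((x + v : 𝓞 K) : K)) :=
              mul_le_mul_of_nonneg_left (by linarith) hmax0
      · rw [not_le] at hX
        have h1 : |fs K s ((x + v : 𝓞 K) : K)| ≤ 1 := by
          rw [abs_of_nonneg (fs_nonneg K s _)]
          exact fs_le_one K hs0 (x + v)
        calc |fs K s ((x + v : 𝓞 K) : K)| ≤ 1 := h1
          _ ≤ E * hmaj K ((x + v : 𝓞 K) : K) := hsmall (x + v) hy hwy hX
          _ ≤ max C E * hmaj K ((x + v : 𝓞 K) : K) := mul_le_mul_of_nonneg_right hmaxE hhy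
          _ ≤ max C E * (hmaj K (x : K) + hmaj K ((x + v : 𝓞 K) : K)) :=
              mul_le_mul_of_nonneg_left (by linarith) hmax0
    · have hy0 : fs K s ((x + v : 𝓞 K) : K) = 0 := by
        apply fs_eq_zero_of_weight_eq_zero
        by_contra h
        push Not at h
        exact hcase2 h
      rw [hy0, abs_zero]
      exact mul_nonneg hmax0 (by linarith)

end Fermat.Agent.S14.Unfold
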