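import Fermat.Agent.S14.Unfold.Shift

/-!
# S14 / W5(d), part U4 (helper4244): orbit decomposition

Sums over the elements of an ideal versus sums over principal ideals; the class zeta functions;
the unfolding identity and the summability of the majorant.  Statements as in the skeleton of
helper7447; auxiliary declarations live in the namespace `Fermat.Agent.S14.Unfold.H4244`.
-/

set_option autoImplicit false

namespace Fermat.Agent.S14.Unfold

open NumberField NumberField.InfinitePlace NumberField.Units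
  NumberField.Units.dirichletUnitTheorem Module
open scoped ENNReal nonZeroDivisors Classical

variable (K : Type*) [Field K] [NumberField K]

/-- The generators of a nonzero principal ideal form a torsor under the units. -/
theorem tsum_generators_eq (a : 𝓞 K) (ha : a ≠ 0) (g : 𝓞 K → ℝ≥0∞) :
    ∑' x : {x : 𝓞 K // Ideal.span {x} = Ideal.span {a}}, g x = ∑' u : (𝓞 K)ˣ, g (u * a) := by
  let e : (𝓞 K)ˣ ≃ {x : 𝓞 K // Ideal.span {x} = Ideal.span {a}} :=
    Equiv.ofBijective (fun u => ⟨u * a, by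
      rw [Ideal.span_singleton_eq_span_singleton]
      exact ⟨u⁻¹, by rw [mul_comm, ← mul_assoc]; simp⟩⟩) ⟨by
        intro u v h
        have h' : (u : 𝓞 K) * a = v * a := congrArg Subtype.val h
        exact Units.ext (mul_right_cancel₀ ha h'), by
        rintro ⟨x, hx⟩
        rw [Ideal.span_singleton_eq_span_singleton] at hx
        obtain ⟨u, hu⟩ := hx.symm
        exact ⟨u, Subtype.ext (by simp [← hu, mul_comm])⟩⟩
  rw [← e.tsum_eq]
  rfl

/-- Sum over the nonzero elements of an ideal `J`, grouped by the principal ideal they generate. -/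
theorem tsum_mem_ideal_eq (J : Ideal (𝓞 K)) (g : 𝓞 K → ℝ≥0∞) (hg : g 0 = 0) :
    ∑' x : J, g x =
      ∑' I : {I : (Ideal (𝓞 K))⁰ // (I : Ideal (𝓞 K)) ≤ J},
        ∑' x : {x : 𝓞 K // Ideal.span {x} = (I : Ideal (𝓞 K))}, g x := by
  rw [← ENNReal.tsum_sigma (f := fun (I : {I : (Ideal (𝓞 K))⁰ // (I : Ideal (𝓞 K)) ≤ J})
    (x : {x : 𝓞 K // Ideal.span {x} = (I : Ideal (𝓞 K))}) => g x)]
  have h1 : ∑' x : J, g x = ∑' x : {x : J // (x : 𝓞 K) ≠ 0}, g (x : J) := by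
    symm
    apply tsum_subtype_eq_of_support_subset (f := fun x : J => g x) (s := {x : J | (x : 𝓞 K) ≠ 0})
    intro x hx
    simp only [Function.mem_support, ne_eq] at hx
    show (x : 𝓞 K) ≠ 0
    intro h0
    exact hx (by rw [h0]; exact hg)
  rw [h1]
  let e : (Σ I : {I : (Ideal (𝓞 K))⁰ // (I : Ideal (𝓞 K)) ≤ J},
      {x : 𝓞 K // Ideal.span {x} = (I : Ideal (𝓞 K))}) ≃ {x : J // (x : 𝓞 K) ≠ 0} :=
    { toFun := fun p => ⟨⟨p.2.1, p.1.2 (p.2.2.le (Ideal.mem_span_singleton_self _))⟩, by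
        intro h0
        have h2 := p.2.2
        have h3 : ((p.1.1 : (Ideal (𝓞 K))⁰) : Ideal (𝓞 K)) ≠ 0 := nonZeroDivisors.coe_ne_zero _
        apply h3
        rw [← h2]
        simp only [] at h0
        rw [h0]
        simp⟩
      invFun := fun x => ⟨⟨⟨Ideal.span {(x.1 : 𝓞 K)}, by
          rw [mem_nonZeroDivisors_iff_ne_zero]
          intro h
          rw [Ideal.zero_eq_bot, Ideal.span_singleton_eq_bot] at h
          exact x.2 h⟩, by
          rw [Ideal.span_le]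
          simp⟩, ⟨(x.1 : 𝓞 K), rfl⟩⟩
      left_inv := by
        rintro ⟨⟨⟨I, hI⟩, hIJ⟩, ⟨x, hx⟩⟩
        simp only [] at hx
        subst hx
        rfl
      right_inv := by
        rintro ⟨⟨x, hx⟩, h0⟩
        rfl }
  rw [← e.tsum_eq]
  rfl

/-- The partial zeta function of an ideal class (as an extended nonnegative real). -/
noncomputable def classZeta (C : ClassGroup (𝓞 K)) (s : ℝ) : ℝ≥0∞ :=
  ∑' I : {I : (Ideal (𝓞 K))⁰ // ClassGroup.mk0 I = C},
    ENNReal.ofReal ((Ideal.absNorm (I.1 : Ideal (𝓞 K)) : ℝ) ^ (-s))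

namespace H4244

/-- absolute norm of a principal ideal in terms of the field norm. -/
theorem absNorm_span_singleton_real (a : 𝓞 K) :
    (Ideal.absNorm (Ideal.span {a}) : ℝ) = |(Algebra.norm ℚ (a : K) : ℝ)| := by
  rw [Ideal.absNorm_span_singleton, ← Algebra.coe_norm_int, Nat.cast_natAbs]
  simp

theorem abs_norm_unit_mul (u : (𝓞 K)ˣ) (a : 𝓞 K) :
    |(Algebra.norm ℚ (((u * a : 𝓞 K)) : K) : ℝ)| = |(Algebra.norm ℚ (a : K) : ℝ)| := by
  have h := Units.norm K u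
  have h2 : (((u * a : 𝓞 K)) : K) = (algebraMap (𝓞 K) K (u : 𝓞 K)) * (a : K) := by
    simp
  rw [h2, map_mul, Rat.cast_mul, abs_mul]
  have h3 : |((Algebra.norm ℚ ((algebraMap (𝓞 K) K) (u : 𝓞 K)) : ℚ) : ℝ)| = 1 := by
    rw [← Rat.cast_abs, h]; simp
  rw [h3, one_mul]

/-- The inner sum over the generators of a principal ideal. -/
theorem tsum_fs_generators (a : 𝓞 K) (ha : a ≠ 0) (s : ℝ) :
    ∑' x : {x : 𝓞 K // Ideal.span {x} = Ideal.span {a}}, ENNReal.ofReal (fs K s ((x : 𝓞 K) : K)) =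
      torsionOrder K * ENNReal.ofReal ((Ideal.absNorm (Ideal.span {a}) : ℝ) ^ (-s)) := by
  rw [tsum_generators_eq K a ha (fun x => ENNReal.ofReal (fs K s (x : K)))]
  have haK : (a : K) ≠ 0 := by simpa using ha
  have h1 : ∀ u : (𝓞 K)ˣ, ENNReal.ofReal (fs K s (((u * a : 𝓞 K)) : K)) =
      ENNReal.ofReal (weight K ((u : K) * (a : K))) *
        ENNReal.ofReal ((Ideal.absNorm (Ideal.span {a}) : ℝ) ^ (-s)) := by
    intro u
    have hne : (((u * a : 𝓞 K)) : K) ≠ 0 := by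
      simp [haK]
    rw [fs, if_neg hne, abs_norm_unit_mul, absNorm_span_singleton_real,
      ENNReal.ofReal_mul (weight_nonneg K _)]
    simp
  simp_rw [h1]
  rw [ENNReal.tsum_mul_right, tsum_weight_unit_mul K haK]

/-- the inner sum vanishes for nonprincipal ideals -/
theorem tsum_generators_of_not_principal (I : Ideal (𝓞 K)) (hI : ¬ I.IsPrincipal) (g : 𝓞 K → ℝ≥0∞) :
    ∑' x : {x : 𝓞 K // Ideal.span {x} = I}, g x = 0 := by
  have : IsEmpty {x : 𝓞 K // Ideal.span {x} = I} := by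
    constructor
    rintro ⟨x, hx⟩
    exact hI ⟨x, hx.symm⟩
  simp

theorem tsum_fs_generators' (I : Ideal (𝓞 K)) (hI0 : I ≠ 0) (s : ℝ) :
    ∑' x : {x : 𝓞 K // Ideal.span {x} = I}, ENNReal.ofReal (fs K s ((x : 𝓞 K) : K)) =
      if I.IsPrincipal then torsionOrder K * ENNReal.ofReal ((Ideal.absNorm I : ℝ) ^ (-s)) else 0 := by
  split_ifs with h
  · obtain ⟨a, ha⟩ := h
    have ha' : I = Ideal.span {a} := ha
    subst ha'
    have ha0 : a ≠ 0 := by
      intro h0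
      apply hI0
      rw [h0]
      simp
    exact tsum_fs_generators K a ha0 s
  · exact tsum_generators_of_not_principal K I h (fun x => ENNReal.ofReal (fs K s (x : K)))

/-- integral ideals in the class `[J]⁻¹` correspond to principal ideals contained in `J`. -/
noncomputable def classEquiv (J : (Ideal (𝓞 K))⁰) :
    {A : (Ideal (𝓞 K))⁰ // ClassGroup.mk0 A = (ClassGroup.mk0 J)⁻¹} ≃
      {I : {I : (Ideal (𝓞 K))⁰ // (I : Ideal (𝓞 K)) ≤ J} //
        Submodule.IsPrincipal ((I.1 : (Ideal (𝓞 K))⁰) : Ideal (𝓞 K))} :=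
  Equiv.ofBijective (fun A => ⟨⟨J * A.1, by
      rw [Submonoid.coe_mul]
      exact (Ideal.mul_le_left : (J : Ideal (𝓞 K)) * (A.1 : Ideal (𝓞 K)) ≤ J)⟩, by
      have h1 : ClassGroup.mk0 (J * A.1) = 1 := by
        rw [map_mul, A.2, mul_inv_cancel]
      exact (ClassGroup.mk0_eq_one_iff (J * A.1).2).mp h1⟩) ⟨by
      intro A B h
      have h1 : ((J * A.1 : (Ideal (𝓞 K))⁰) : Ideal (𝓞 K)) = ((J * B.1 : (Ideal (𝓞 K))⁰) : Ideal (𝓞 K)) :=
        congrArg (fun x => ((x.1.1 : (Ideal (𝓞 K))⁰) : Ideal (𝓞 K))) h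
      rw [Submonoid.coe_mul, Submonoid.coe_mul] at h1
      have h2 := mul_left_cancel₀ (nonZeroDivisors.coe_ne_zero J) h1
      exact Subtype.ext (Subtype.ext h2), by
      rintro ⟨⟨I, hIJ⟩, hI⟩
      obtain ⟨A, hA⟩ := Ideal.dvd_iff_le.mpr hIJ
      have hA0 : A ≠ 0 := by
        intro h0
        apply nonZeroDivisors.coe_ne_zero I
        rw [hA, h0, mul_zero]
      let A' : (Ideal (𝓞 K))⁰ := ⟨A, mem_nonZeroDivisors_iff_ne_zero.mpr hA0⟩
      have hIA : I = J * A' := Subtype.ext (by rw [Submonoid.coe_mul]; exact hA)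
      refine ⟨⟨A', ?_⟩, ?_⟩
      · have h1 : ClassGroup.mk0 I = 1 := (ClassGroup.mk0_eq_one_iff I.2).mpr hI
        rw [hIA, map_mul] at h1
        exact eq_inv_of_mul_eq_one_right h1
      · exact Subtype.ext (Subtype.ext hIA.symm)⟩

theorem classEquiv_coe (J : (Ideal (𝓞 K))⁰)
    (A : {A : (Ideal (𝓞 K))⁰ // ClassGroup.mk0 A = (ClassGroup.mk0 J)⁻¹}) :
    ((classEquiv K J A).1.1 : Ideal (𝓞 K)) = (J : Ideal (𝓞 K)) * (A.1 : Ideal (𝓞 K)) := rfl

end H4244

open H4244 in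
/-- Unfolding: the smooth sum over `J \ 0` computes the class zeta function of `[J]⁻¹`. -/
theorem tsum_fs_mem_ideal (J : (Ideal (𝓞 K))⁰) (s : ℝ) :
    ∑' x : (J : Ideal (𝓞 K)), ENNReal.ofReal (fs K s ((x : 𝓞 K) : K)) =
      torsionOrder K * ENNReal.ofReal ((Ideal.absNorm (J : Ideal (𝓞 K)) : ℝ) ^ (-s))
        * classZeta K (ClassGroup.mk0 J)⁻¹ s := by
  rw [tsum_mem_ideal_eq K J (fun x => ENNReal.ofReal (fs K s (x : K))) (by simp [fs])]
  have h1 : ∀ I : {I : (Ideal (𝓞 K))⁰ // (I : Ideal (𝓞 K)) ≤ J},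
      ∑' x : {x : 𝓞 K // Ideal.span {x} = (I.1 : Ideal (𝓞 K))}, ENNReal.ofReal (fs K s ((x : 𝓞 K) : K)) =
      if (I.1 : Ideal (𝓞 K)).IsPrincipal then
        torsionOrder K * ENNReal.ofReal ((Ideal.absNorm (I.1 : Ideal (𝓞 K)) : ℝ) ^ (-s)) else 0 :=
    fun I => tsum_fs_generators' K _ (nonZeroDivisors.coe_ne_zero I.1) s
  simp_rw [h1]
  rw [← tsum_subtype_eq_of_support_subset (s := {I : {I : (Ideal (𝓞 K))⁰ // (I : Ideal (𝓞 K)) ≤ J} |
    (I.1 : Ideal (𝓞 K)).IsPrincipal})]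
  swap
  · intro I hI
    simp only [Function.mem_support, ne_eq, ite_eq_right_iff, not_forall] at hI
    exact hI.1
  have h2 : ∑' I : {I : {I : (Ideal (𝓞 K))⁰ // (I : Ideal (𝓞 K)) ≤ J} //
        Submodule.IsPrincipal ((I.1 : (Ideal (𝓞 K))⁰) : Ideal (𝓞 K))},
      (if Submodule.IsPrincipal ((I.1.1 : (Ideal (𝓞 K))⁰) : Ideal (𝓞 K)) then
        (torsionOrder K : ℝ≥0∞) * ENNReal.ofReal ((Ideal.absNorm (I.1.1 : Ideal (𝓞 K)) : ℝ) ^ (-s)) else 0) =
      torsionOrder K * ENNReal.ofReal ((Ideal.absNorm (J : Ideal (𝓞 K)) : ℝ) ^ (-s))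
        * classZeta K (ClassGroup.mk0 J)⁻¹ s := by
    rw [← (classEquiv K J).tsum_eq, classZeta, ← ENNReal.tsum_mul_left]
    refine tsum_congr fun A => ?_
    rw [if_pos (classEquiv K J A).2, classEquiv_coe, map_mul, Nat.cast_mul,
      Real.mul_rpow (Nat.cast_nonneg _) (Nat.cast_nonneg _),
      ENNReal.ofReal_mul (Real.rpow_nonneg (Nat.cast_nonneg _) _), mul_assoc]
  exact h2


/-- The full zeta sum. -/
noncomputable def zetaSum (s : ℝ) : ℝ≥0∞ :=
  ∑' I : (Ideal (𝓞 K))⁰, ENNReal.ofReal ((Ideal.absNorm (I : Ideal (𝓞 K)) : ℝ) ^ (-s))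

theorem zetaSum_eq_sum_classZeta [Fintype (ClassGroup (𝓞 K))] (s : ℝ) :
    zetaSum K s = ∑ C : ClassGroup (𝓞 K), classZeta K C s := by
  rw [zetaSum, ← ENNReal.tsum_fiberwise _ (ClassGroup.mk0 (R := 𝓞 K)), tsum_fintype]
  rfl

namespace H4244

/-- the real Dirichlet coefficients of the Dedekind zeta function -/
noncomputable def zterm (s : ℝ) (n : ℕ) : ℝ :=
  if n = 0 then 0 else (Nat.card {I : Ideal (𝓞 K) // Ideal.absNorm I = n} : ℝ) * (n : ℝ) ^ (-s)

theorem zterm_nonneg (s : ℝ) (n : ℕ) : 0 ≤ zterm K s n := by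
  unfold zterm
  split_ifs
  · exact le_rfl
  · positivity

theorem zetaSum_eq_tsum (s : ℝ) : zetaSum K s = ∑' n : ℕ, ENNReal.ofReal (zterm K s n) := by
  rw [zetaSum, ← ENNReal.tsum_fiberwise _ (fun I : (Ideal (𝓞 K))⁰ => Ideal.absNorm (I : Ideal (𝓞 K)))]
  refine tsum_congr fun n => ?_
  by_cases hn : n = 0
  · subst hn
    have : IsEmpty ((fun I : (Ideal (𝓞 K))⁰ => Ideal.absNorm (I : Ideal (𝓞 K))) ⁻¹' {0}) := by
      constructor
      rintro ⟨I, hI⟩
      exact Ideal.absNorm_ne_zero_of_nonZeroDivisors I hI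
    simp [zterm]
  · rw [zterm, if_neg hn]
    have h1 : ∀ b : ((fun I : (Ideal (𝓞 K))⁰ => Ideal.absNorm (I : Ideal (𝓞 K))) ⁻¹' {n}),
        ENNReal.ofReal ((Ideal.absNorm ((b : (Ideal (𝓞 K))⁰) : Ideal (𝓞 K)) : ℝ) ^ (-s)) =
          ENNReal.ofReal ((n : ℝ) ^ (-s)) := by
      rintro ⟨I, hI⟩
      have hI' : Ideal.absNorm (I : Ideal (𝓞 K)) = n := hI
      simp only [hI']
    simp_rw [h1]
    let e : ((fun I : (Ideal (𝓞 K))⁰ => Ideal.absNorm (I : Ideal (𝓞 K))) ⁻¹' {n}) ≃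
        {I : Ideal (𝓞 K) // Ideal.absNorm I = n} :=
      { toFun := fun I => ⟨I.1.1, I.2⟩
        invFun := fun I => ⟨⟨I.1, by
          rw [mem_nonZeroDivisors_iff_ne_zero]
          intro h0
          have := I.2
          rw [h0] at this
          simp at this
          exact hn this.symm⟩, I.2⟩
        left_inv := fun I => rfl
        right_inv := fun I => rfl }
    have hfin : Finite {I : Ideal (𝓞 K) // Ideal.absNorm I = n} :=
      Ideal.finite_setOfPred_absNorm_eq n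
    have hfin' : Finite ((fun I : (Ideal (𝓞 K))⁰ => Ideal.absNorm (I : Ideal (𝓞 K))) ⁻¹' {n}) :=
      Finite.of_equiv _ e.symm
    have := Fintype.ofFinite ((fun I : (Ideal (𝓞 K))⁰ => Ideal.absNorm (I : Ideal (𝓞 K))) ⁻¹' {n})
    rw [tsum_fintype, Finset.sum_const, Finset.card_univ, nsmul_eq_mul, ← Nat.card_eq_fintype_card,
      Nat.card_congr e, ENNReal.ofReal_mul (Nat.cast_nonneg _), ENNReal.ofReal_natCast]

theorem dedekindZeta_eq_tsum (s : ℝ) :
    dedekindZeta K (s : ℂ) = ((∑' n : ℕ, zterm K s n : ℝ) : ℂ) := by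
  rw [dedekindZeta, LSeries, Complex.ofReal_tsum]
  refine tsum_congr fun n => ?_
  by_cases hn : n = 0
  · subst hn
    simp [zterm]
  · rw [LSeries.term_of_ne_zero hn, zterm, if_neg hn, Real.rpow_neg (Nat.cast_nonneg _)]
    push_cast
    rw [Complex.ofReal_cpow (Nat.cast_nonneg _)]
    simp [div_eq_mul_inv]

theorem zetaSum_mono {s s' : ℝ} (h : s' ≤ s) : zetaSum K s ≤ zetaSum K s' := by
  refine ENNReal.tsum_le_tsum fun I => ENNReal.ofReal_le_ofReal ?_
  apply Real.rpow_le_rpow_of_exponent_le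
  · have := Ideal.absNorm_pos_of_nonZeroDivisors I
    exact_mod_cast this
  · linarith

theorem summable_zterm_of_ne_zero {s : ℝ} (h : ∑' n : ℕ, zterm K s n ≠ 0) : Summable (zterm K s) := by
  by_contra hns
  exact h (tsum_eq_zero_of_not_summable hns)

theorem zetaSum_eq_ofReal {s : ℝ} (h : Summable (zterm K s)) :
    zetaSum K s = ENNReal.ofReal (∑' n : ℕ, zterm K s n) := by
  rw [zetaSum_eq_tsum, ENNReal.ofReal_tsum_of_nonneg (zterm_nonneg K s) h]

end H4244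


namespace H4244

theorem tendsto_sub_one_mul_tsum_zterm :
    Filter.Tendsto (fun s : ℝ => (s - 1) * ∑' n : ℕ, zterm K s n) (nhdsWithin 1 (Set.Ioi 1))
      (nhds (dedekindZeta_residue K)) := by
  have h := tendsto_sub_one_mul_dedekindZeta_nhdsGT K
  have h2 := (Complex.continuous_re.tendsto _).comp h
  refine h2.congr fun s => ?_
  simp only [Function.comp_apply]
  rw [dedekindZeta_eq_tsum]
  have : ((s : ℂ) - 1) * ((∑' n : ℕ, zterm K s n : ℝ) : ℂ) =
      (((s - 1) * ∑' n : ℕ, zterm K s n : ℝ) : ℂ) := by push_cast; ring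
  rw [this, Complex.ofReal_re]

theorem exists_near_one :
    ∃ δ : ℝ, 0 < δ ∧ ∃ c : ℝ, 0 < c ∧ ∀ s : ℝ, 1 < s → s < 1 + δ →
      Summable (zterm K s) ∧ (s - 1) * ∑' n : ℕ, zterm K s n ≤ c := by
  have h := tendsto_sub_one_mul_tsum_zterm K
  have hρ := dedekindZeta_residue_pos K
  have h1 : ∀ᶠ s in nhdsWithin (1 : ℝ) (Set.Ioi 1), (s - 1) * ∑' n : ℕ, zterm K s n
      < dedekindZeta_residue K + 1 := h.eventually_lt_const (by linarith)
  have h2 : ∀ᶠ s in nhdsWithin (1 : ℝ) (Set.Ioi 1), 0 < (s - 1) * ∑' n : ℕ, zterm K s n :=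
    h.eventually_const_lt hρ
  have h3 := h1.and h2
  rw [eventually_nhdsWithin_iff, Metric.eventually_nhds_iff] at h3
  obtain ⟨δ, hδ, hd⟩ := h3
  refine ⟨δ, hδ, dedekindZeta_residue K + 1, by linarith, fun s hs1 hs2 => ?_⟩
  have hdist : dist s 1 < δ := by
    rw [Real.dist_eq, abs_lt]; constructor <;> linarith
  obtain ⟨ha, hb⟩ := hd hdist hs1
  refine ⟨summable_zterm_of_ne_zero K ?_, ha.le⟩
  intro h0
  rw [h0, mul_zero] at hb
  exact lt_irrefl _ hb

end H4244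

open H4244 in
theorem zetaSum_lt_top {s : ℝ} (hs : 1 < s) : zetaSum K s < ⊤ := by
  obtain ⟨δ, hδ, c, hc, h⟩ := exists_near_one K
  have hs' : 1 < min s (1 + δ / 2) := lt_min hs (by linarith)
  have hs'' : min s (1 + δ / 2) < 1 + δ := lt_of_le_of_lt (min_le_right _ _) (by linarith)
  obtain ⟨hsum, -⟩ := h _ hs' hs''
  refine lt_of_le_of_lt (zetaSum_mono K (min_le_left s (1 + δ / 2))) ?_
  rw [zetaSum_eq_ofReal K hsum]
  exact ENNReal.ofReal_lt_top

open H4244 in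
/-- From Mathlib's residue theorem: `ζ_K(s) ≤ c / (s - 1)` on `(1, 2]`. -/
theorem exists_zetaSum_le :
    ∃ c : ℝ, 0 < c ∧ ∀ s : ℝ, 1 < s → s ≤ 2 → (zetaSum K s).toReal ≤ c / (s - 1) := by
  obtain ⟨δ, hδ, c, hc, h⟩ := exists_near_one K
  refine ⟨c * (1 + 2 / δ), by positivity, fun s hs1 hs2 => ?_⟩
  have hs0 : 0 < s - 1 := by linarith
  have key : ∀ t : ℝ, 1 < t → t < 1 + δ → (zetaSum K t).toReal ≤ c / (t - 1) := by
    intro t ht1 ht2
    obtain ⟨hsum, hle⟩ := h t ht1 ht2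
    rw [zetaSum_eq_ofReal K hsum, ENNReal.toReal_ofReal (tsum_nonneg (zterm_nonneg K t)),
      le_div_iff₀ (by linarith)]
    linarith
  by_cases hsδ : s < 1 + δ
  · refine (key s hs1 hsδ).trans ?_
    apply div_le_div_of_nonneg_right _ hs0.le
    have : 0 ≤ 2 / δ := by positivity
    nlinarith
  · rw [not_lt] at hsδ
    have h1 : (1 : ℝ) < 1 + δ / 2 := by linarith
    have h2 : 1 + δ / 2 < 1 + δ := by linarith
    have h3 := key _ h1 h2
    have h4 : zetaSum K s ≤ zetaSum K (1 + δ / 2) := zetaSum_mono K (by linarith)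
    have h5 : (zetaSum K s).toReal ≤ (zetaSum K (1 + δ / 2)).toReal :=
      ENNReal.toReal_mono (zetaSum_lt_top K h1).ne h4
    refine h5.trans (h3.trans ?_)
    rw [le_div_iff₀ hs0]
    have e1 : c / (1 + δ / 2 - 1) = c * (2 / δ) := by
      have e0 : 1 + δ / 2 - 1 = δ / 2 := by ring
      rw [e0]
      field_simp
    rw [e1]
    have h6 : 0 ≤ c * (2 / δ) := by positivity
    have h7 : s - 1 ≤ 1 := by linarith
    nlinarith


namespace H4244

/-- Sum over the nonzero elements of `𝓞 K`, grouped by the principal ideal they generate. -/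
theorem tsum_ring_eq (g : 𝓞 K → ℝ≥0∞) (hg : g 0 = 0) :
    ∑' x : 𝓞 K, g x =
      ∑' I : (Ideal (𝓞 K))⁰,
        ∑' x : {x : 𝓞 K // Ideal.span {x} = (I : Ideal (𝓞 K))}, g x := by
  rw [← ENNReal.tsum_sigma (f := fun (I : (Ideal (𝓞 K))⁰)
    (x : {x : 𝓞 K // Ideal.span {x} = (I : Ideal (𝓞 K))}) => g x)]
  have h1 : ∑' x : 𝓞 K, g x = ∑' x : {x : 𝓞 K // x ≠ 0}, g x := by
    symm
    apply tsum_subtype_eq_of_support_subset (f := g) (s := {x : 𝓞 K | x ≠ 0})
    intro x hx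
    simp only [Function.mem_support, ne_eq] at hx
    show x ≠ 0
    intro h0
    exact hx (by rw [h0]; exact hg)
  rw [h1]
  let e : (Σ I : (Ideal (𝓞 K))⁰,
      {x : 𝓞 K // Ideal.span {x} = (I : Ideal (𝓞 K))}) ≃ {x : 𝓞 K // x ≠ 0} :=
    { toFun := fun p => ⟨p.2.1, by
        intro h0
        have h2 := p.2.2
        have h3 : ((p.1 : (Ideal (𝓞 K))⁰) : Ideal (𝓞 K)) ≠ 0 := nonZeroDivisors.coe_ne_zero _
        apply h3
        rw [← h2, h0]
        simp⟩
      invFun := fun x => ⟨⟨Ideal.span {(x.1 : 𝓞 K)}, by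
          rw [mem_nonZeroDivisors_iff_ne_zero]
          intro h
          rw [Ideal.zero_eq_bot, Ideal.span_singleton_eq_bot] at h
          exact x.2 h⟩, ⟨(x.1 : 𝓞 K), rfl⟩⟩
      left_inv := by
        rintro ⟨⟨I, hI⟩, ⟨x, hx⟩⟩
        simp only [] at hx
        subst hx
        rfl
      right_inv := by
        rintro ⟨x, h0⟩
        rfl }
  rw [← e.tsum_eq]
  rfl

theorem hmaj_unit_mul (u : (𝓞 K)ˣ) (a : 𝓞 K) (ha : a ≠ 0) :
    ENNReal.ofReal (hmaj K (((u * a : 𝓞 K)) : K)) =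
      (if weight K ((u : K) * (a : K)) ≠ 0 then (1 : ℝ≥0∞) else 0) *
        ENNReal.ofReal ((Ideal.absNorm (Ideal.span {a}) : ℝ) ^ (-(1 + (finrank ℚ K : ℝ)⁻¹))) := by
  have haK : (a : K) ≠ 0 := by simpa using ha
  have hne : (((u * a : 𝓞 K)) : K) ≠ 0 := by simp [haK]
  have hcoe : (((u * a : 𝓞 K)) : K) = (u : K) * (a : K) := by simp
  by_cases hw : weight K ((u : K) * (a : K)) = 0
  · rw [hmaj, if_pos (Or.inr (by rw [hcoe]; exact hw))]
    simp [hw]
  · rw [hmaj, if_neg (by rw [hcoe]; push Not; exact ⟨by rw [← hcoe]; exact hne, hw⟩),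
      abs_norm_unit_mul, absNorm_span_singleton_real]
    simp [hw]

theorem tsum_hmaj_generators_le (I : Ideal (𝓞 K)) (hI0 : I ≠ 0) :
    ∑' x : {x : 𝓞 K // Ideal.span {x} = I}, ENNReal.ofReal (hmaj K ((x : 𝓞 K) : K)) ≤
      (torsionOrder K * 2 ^ rank K : ℝ≥0∞) *
        ENNReal.ofReal ((Ideal.absNorm I : ℝ) ^ (-(1 + (finrank ℚ K : ℝ)⁻¹))) := by
  by_cases h : I.IsPrincipal
  · obtain ⟨a, ha⟩ := h
    have ha' : I = Ideal.span {a} := ha
    subst ha'
    have ha0 : a ≠ 0 := by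
      intro h0
      apply hI0
      rw [h0]
      simp
    have haK : (a : K) ≠ 0 := by simpa using ha0
    rw [tsum_generators_eq K a ha0 (fun x => ENNReal.ofReal (hmaj K (x : K)))]
    simp_rw [hmaj_unit_mul K _ a ha0]
    rw [ENNReal.tsum_mul_right]
    gcongr
    exact tsum_indicator_weight_unit_mul_le K haK
  · rw [tsum_generators_of_not_principal K I h (fun x => ENNReal.ofReal (hmaj K (x : K)))]
    exact bot_le

end H4244

open H4244 in
/-- The majorant is summable over `𝓞 K`. -/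
theorem tsum_hmaj_lt_top : ∑' x : 𝓞 K, ENNReal.ofReal (hmaj K (x : K)) < ⊤ := by
  rw [tsum_ring_eq K (fun x => ENNReal.ofReal (hmaj K (x : K))) (by simp [hmaj])]
  have hσ : (1 : ℝ) < 1 + (finrank ℚ K : ℝ)⁻¹ := by
    have : 0 < (finrank ℚ K : ℝ) := by exact_mod_cast finrank_pos
    have : 0 < (finrank ℚ K : ℝ)⁻¹ := inv_pos.mpr this
    linarith
  calc ∑' I : (Ideal (𝓞 K))⁰,
        ∑' x : {x : 𝓞 K // Ideal.span {x} = (I : Ideal (𝓞 K))}, ENNReal.ofReal (hmaj K ((x : 𝓞 K) : K))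
      ≤ ∑' I : (Ideal (𝓞 K))⁰, (torsionOrder K * 2 ^ rank K : ℝ≥0∞) *
        ENNReal.ofReal ((Ideal.absNorm (I : Ideal (𝓞 K)) : ℝ) ^ (-(1 + (finrank ℚ K : ℝ)⁻¹))) :=
        ENNReal.tsum_le_tsum fun I => tsum_hmaj_generators_le K _ (nonZeroDivisors.coe_ne_zero I)
    _ = (torsionOrder K * 2 ^ rank K : ℝ≥0∞) * zetaSum K (1 + (finrank ℚ K : ℝ)⁻¹) := by
        rw [ENNReal.tsum_mul_left, zetaSum]
    _ < ⊤ := by
        apply ENNReal.mul_lt_top
        · exact ENNReal.mul_lt_top (ENNReal.natCast_lt_top _) (ENNReal.pow_lt_top (by simp))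
        · exact zetaSum_lt_top K hσ

end Fermat.Agent.S14.Unfold
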