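import Fermat.Agent.S14.Unfold.U4

/-!
# S14 / W5(d), inputs of U5 (helper5950): coset decomposition and the summed shift bound

Exact statements `tsum_eq_sum_cosets` and `tsum_abs_fs_add_sub_le` of the helper7447 skeleton,
proved on top of the real files U0–U3 (helper7447) and U4 (helper4244).
-/

set_option autoImplicit false
set_option linter.unusedSectionVars false

namespace Fermat.Agent.S14.Unfold

open NumberField NumberField.InfinitePlace NumberField.Units Module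
open scoped ENNReal nonZeroDivisors Classical

variable (K : Type*) [Field K] [NumberField K]

/-- Coset decomposition of a sum over `𝓞 K` along an ideal `J ≠ ⊥`. -/
theorem tsum_eq_sum_cosets (J : (Ideal (𝓞 K))⁰) :
    ∃ v : Fin (Ideal.absNorm (J : Ideal (𝓞 K))) → 𝓞 K, ∀ g : 𝓞 K → ℝ≥0∞,
      ∑' x : 𝓞 K, g x = ∑ i, ∑' x : (J : Ideal (𝓞 K)), g ((x : 𝓞 K) + v i) := by
  set I : Ideal (𝓞 K) := (J : Ideal (𝓞 K)) with hI
  have hI0 : I ≠ ⊥ := nonZeroDivisors.coe_ne_zero J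
  have hcard : Nat.card (𝓞 K ⧸ I) = Ideal.absNorm I := by
    rw [Ideal.absNorm_apply, Submodule.cardQuot_apply]
  have hpos : Ideal.absNorm I ≠ 0 := by
    rw [Ne, Ideal.absNorm_eq_zero_iff]; exact hI0
  haveI : Finite (𝓞 K ⧸ I) := Nat.finite_of_card_ne_zero (hcard ▸ hpos)
  obtain ⟨e⟩ : Nonempty (Fin (Ideal.absNorm I) ≃ (𝓞 K ⧸ I)) := by
    haveI := Fintype.ofFinite (𝓞 K ⧸ I)
    exact ⟨(Fintype.equivFinOfCardEq (by rw [← Nat.card_eq_fintype_card, hcard])).symm⟩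
  have hsurj : Function.Surjective (Ideal.Quotient.mk I) := Ideal.Quotient.mk_surjective
  set v : Fin (Ideal.absNorm I) → 𝓞 K := fun i => Function.surjInv hsurj (e i) with hv
  have hvi : ∀ i, Ideal.Quotient.mk I (v i) = e i := fun i => Function.surjInv_eq hsurj (e i)
  refine ⟨v, fun g => ?_⟩
  let φ : Fin (Ideal.absNorm I) × I ≃ 𝓞 K :=
    Equiv.ofBijective (fun q => (q.2 : 𝓞 K) + v q.1) ⟨by
      intro q q' h
      have h' : (q.2 : 𝓞 K) + v q.1 = (q'.2 : 𝓞 K) + v q'.1 := h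
      have h1 := congrArg (Ideal.Quotient.mk I) h'
      rw [map_add, map_add, Ideal.Quotient.eq_zero_iff_mem.mpr q.2.2,
        Ideal.Quotient.eq_zero_iff_mem.mpr q'.2.2, zero_add, zero_add, hvi, hvi] at h1
      have h2 : q.1 = q'.1 := e.injective h1
      have h3 : (q.2 : 𝓞 K) = (q'.2 : 𝓞 K) := by
        rw [h2] at h'
        exact add_right_cancel h'
      exact Prod.ext h2 (Subtype.ext h3), by
      intro y
      have hy : Ideal.Quotient.mk I (v (e.symm (Ideal.Quotient.mk I y))) = Ideal.Quotient.mk I y := by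
        rw [hvi, Equiv.apply_symm_apply]
      have hmem : y - v (e.symm (Ideal.Quotient.mk I y)) ∈ I := by
        rw [← Ideal.Quotient.eq, hy]
      exact ⟨(e.symm (Ideal.Quotient.mk I y), ⟨_, hmem⟩), by simp⟩⟩
  rw [← φ.tsum_eq, ENNReal.tsum_prod' , tsum_fintype]
  rfl

/-- Shift bound: `∑_{x ∈ J} |f_s(x + v) - f_s(x)| = O(1)` uniformly for `s ∈ [1, 2]`. -/
theorem tsum_abs_fs_add_sub_le (J : (Ideal (𝓞 K))⁰) (v : 𝓞 K) :
    ∃ D : ℝ, 0 ≤ D ∧ ∀ s : ℝ, 1 ≤ s → s ≤ 2 →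
      ∑' x : (J : Ideal (𝓞 K)),
        ENNReal.ofReal |fs K s (((x : 𝓞 K) + v : 𝓞 K) : K) - fs K s ((x : 𝓞 K) : K)|
          ≤ ENNReal.ofReal D := by
  obtain ⟨C, hC0, hC⟩ := abs_fs_add_sub_le K v
  have hH := tsum_hmaj_lt_top K
  set H : ℝ≥0∞ := ∑' x : 𝓞 K, ENNReal.ofReal (hmaj K (x : K)) with hHdef
  refine ⟨C * (H.toReal + H.toReal),
    mul_nonneg hC0 (add_nonneg ENNReal.toReal_nonneg ENNReal.toReal_nonneg), fun s hs1 hs2 => ?_⟩
  have h1 : ∑' x : (J : Ideal (𝓞 K)), ENNReal.ofReal (hmaj K ((x : 𝓞 K) : K)) ≤ H :=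
    ENNReal.tsum_comp_le_tsum_of_injective (f := fun x : (J : Ideal (𝓞 K)) => (x : 𝓞 K))
      Subtype.val_injective (fun x : 𝓞 K => ENNReal.ofReal (hmaj K (x : K)))
  have h2 : ∑' x : (J : Ideal (𝓞 K)), ENNReal.ofReal (hmaj K (((x : 𝓞 K) + v : 𝓞 K) : K)) ≤ H :=
    ENNReal.tsum_comp_le_tsum_of_injective (f := fun x : (J : Ideal (𝓞 K)) => (x : 𝓞 K) + v)
      (fun a b h => Subtype.ext (add_right_cancel h))
      (fun x : 𝓞 K => ENNReal.ofReal (hmaj K (x : K)))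
  calc ∑' x : (J : Ideal (𝓞 K)),
        ENNReal.ofReal |fs K s (((x : 𝓞 K) + v : 𝓞 K) : K) - fs K s ((x : 𝓞 K) : K)|
      ≤ ∑' x : (J : Ideal (𝓞 K)), ENNReal.ofReal C *
          (ENNReal.ofReal (hmaj K ((x : 𝓞 K) : K)) +
            ENNReal.ofReal (hmaj K (((x : 𝓞 K) + v : 𝓞 K) : K))) := by
        refine ENNReal.tsum_le_tsum (fun x => ?_)
        refine (ENNReal.ofReal_le_ofReal (hC s hs1 hs2 x)).trans ?_
        rw [ENNReal.ofReal_mul hC0, ENNReal.ofReal_add (hmaj_nonneg _ _) (hmaj_nonneg _ _)]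
    _ = ENNReal.ofReal C * (∑' x : (J : Ideal (𝓞 K)), ENNReal.ofReal (hmaj K ((x : 𝓞 K) : K)) +
          ∑' x : (J : Ideal (𝓞 K)), ENNReal.ofReal (hmaj K (((x : 𝓞 K) + v : 𝓞 K) : K))) := by
        rw [ENNReal.tsum_mul_left, ENNReal.tsum_add]
    _ ≤ ENNReal.ofReal C * (H + H) := by gcongr
    _ = ENNReal.ofReal (C * (H.toReal + H.toReal)) := by
        rw [ENNReal.ofReal_mul hC0, ENNReal.ofReal_add ENNReal.toReal_nonneg ENNReal.toReal_nonneg,
          ENNReal.ofReal_toReal hH.ne]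

end Fermat.Agent.S14.Unfold
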